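import Fermat.Agent.S37.HeckeDiv
import Fermat.Agent.S37.NormBeta
import Fermat.Agent.S36.Inst.ZT
import Fermat.Agent.S36.Mod.EtaFormal

/-!
# S40, block (CST): definitions

The Hecke correspondence `T_ℓ` on the function field `FT A M` of `X₀(M)` in characteristic `p`
(`A` a valuation ring of `ℚ̄` over `p`, `ℓ ≠ p`, `ℓ ∤ M`).

* `aT A M ℓ`, `bT A M ℓ : FT A M →ₐ FT A (M * ℓ)` : the two degeneracy maps `z ↦ z`, `z ↦ z(q^ℓ)`.
* `IsHeckeDivT A M ℓ T` : `T` is an additive, positive map on divisors, multiplying degrees by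
  `d ≤ ℓ + 1`, with `T (div f) = div (heckeMul ℓ f)`.
-/

set_option autoImplicit false
set_option synthInstance.maxHeartbeats 400000

open AlgebraicCurve ModularCurve Polynomial

namespace Fermat.Agent.S40Lib

open Fermat.Agent.S18Lib Fermat.Agent.S24Lib Fermat.Agent.S28Lib Fermat.Agent.ESLib
  Fermat.Agent.S34Lib Fermat.Agent.FFLib Fermat.Agent.S36Lib Fermat.Agent.S37Lib

noncomputable section

/-- the inclusion `FT A M → FT A (M * ℓ)` -/
def aT (A : ValuationSubring Qb) (M ℓ : ℕ) [NeZero M] [NeZero ℓ] :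
    FT A M →ₐ[kk A] FT A (M * ℓ) :=
  IntermediateField.inclusion (full_degeneracyC_le (kk A) (dvd_mul_right M ℓ))

theorem coe_aT (A : ValuationSubring Qb) (M ℓ : ℕ) [NeZero M] [NeZero ℓ] (x : FT A M) :
    ((aT A M ℓ x : FT A (M * ℓ)) : LaurentSeries (kk A)) = (x : LaurentSeries (kk A)) :=
  IntermediateField.coe_inclusion _ x

/-- `z ↦ z(q^ℓ)`, `FT A M → FT A (M * ℓ)` -/
def bT (A : ValuationSubring Qb) (M ℓ : ℕ) [NeZero M] [NeZero ℓ] :
    FT A M →ₐ[kk A] FT A (M * ℓ) :=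
  ((qExpandAlgHomC (kk A) ℓ).comp (FT A M).val).codRestrict (FT A (M * ℓ)).toSubalgebra
    (fun x => full_degeneracyC_map_le (kk A) M ℓ ⟨x, x.2, rfl⟩)

theorem coe_bT (A : ValuationSubring Qb) (M ℓ : ℕ) [NeZero M] [NeZero ℓ] (x : FT A M) :
    ((bT A M ℓ x : FT A (M * ℓ)) : LaurentSeries (kk A)) =
      qExpand (kk A) ℓ (x : LaurentSeries (kk A)) := rfl

/-- `T` is "the" Hecke correspondence `T_ℓ` on the divisors of `FT A M` -/
structure IsHeckeDivT (A : ValuationSubring Qb) (M ℓ : ℕ) [NeZero ℓ]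
    (T : Divisor (kk A) (FT A M) →+ Divisor (kk A) (FT A M)) : Prop where
  pos : ∀ D : Divisor (kk A) (FT A M), 0 ≤ D → 0 ≤ T D
  deg : ∃ d : ℕ, d ≤ ℓ + 1 ∧ ∀ D : Divisor (kk A) (FT A M),
    Divisor.degree (T D) = (d : ℤ) * Divisor.degree D
  prin : ∀ f g : FT A M, f ≠ 0 →
    (g : LaurentSeries (kk A)) = heckeMul ℓ (f : LaurentSeries (kk A)) →
    ∀ D : Divisor (kk A) (FT A M), (∀ P, D P = P.ord f) → ∀ P, T D P = P.ord g

end

end Fermat.Agent.S40Lib
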