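import Mathlib

/-!
# S40, block (CST), batch (NR): norms and reduction (abstract)
-/

set_option autoImplicit false
set_option linter.unusedSectionVars false
set_option linter.unusedVariables false

namespace Fermat.Agent.S40Lib

noncomputable section

section NR

variable {F E kF kE : Type*} [Field F] [Field E] [Field kF] [Field kE] [Algebra F E]
  [Algebra kF kE] [FiniteDimensional F E]
  (OF : ValuationSubring F) (OE : ValuationSubring E) (rF : OF →+* kF) (rE : OE →+* kE)

/-- (NR0) scaling by the largest coefficient -/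
theorem NR_aux
    (hmem : ∀ x : F, algebraMap F E x ∈ OE ↔ x ∈ OF)
    (hcomp : ∀ (x : OF) (h : algebraMap F E (x : F) ∈ OE),
      rE ⟨_, h⟩ = algebraMap kF kE (rF x))
    {n : ℕ} (b : Fin n → OE) (hb : LinearIndependent kF (fun i => rE (b i))) (a : Fin n → F)
    (i0 : Fin n) (h0 : a i0 ≠ 0) (hmax : ∀ i, OF.valuation (a i) ≤ OF.valuation (a i0)) :
    ∃ h : (a i0)⁻¹ • ∑ i, a i • ((b i : OE) : E) ∈ OE, rE ⟨_, h⟩ ≠ 0 := by
  have hc : ∀ i, a i / a i0 ∈ OF := by
    intro i
    rw [← ValuationSubring.valuation_le_one_iff, map_div₀]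
    exact div_le_one_of_le₀ (hmax i) zero_le
  let ι : OF → OE := fun c => ⟨algebraMap F E c, (hmem _).mpr c.2⟩
  have hι : ∀ c : OF, rE (ι c) = algebraMap kF kE (rF c) := fun c => hcomp c _
  let S : OE := ∑ i, ι ⟨_, hc i⟩ * b i
  have hS : (S : E) = (a i0)⁻¹ • ∑ i, a i • ((b i : OE) : E) := by
    show ((∑ i, ι ⟨_, hc i⟩ * b i : OE) : E) = _
    rw [AddSubmonoidClass.coe_finsetSum, Finset.smul_sum]
    apply Finset.sum_congr rfl
    intro i _
    show algebraMap F E (a i / a i0) * ((b i : OE) : E) = _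
    rw [smul_smul, Algebra.smul_def, div_eq_inv_mul]
  refine ⟨hS ▸ S.2, ?_⟩
  have hS' : (⟨_, hS ▸ S.2⟩ : OE) = S := Subtype.ext hS.symm
  rw [hS']
  intro hzero
  have h1 : ∑ i, rF ⟨_, hc i⟩ • rE (b i) = 0 := by
    rw [← hzero]
    show _ = rE (∑ i, ι ⟨_, hc i⟩ * b i)
    rw [map_sum]
    apply Finset.sum_congr rfl
    intro i _
    rw [map_mul, hι, Algebra.smul_def]
  have h2 := Fintype.linearIndependent_iff.mp hb _ h1 i0
  have h3 : (⟨_, hc i0⟩ : OF) = 1 := Subtype.ext (div_self h0)
  rw [h3, map_one] at h2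
  exact one_ne_zero h2

/-- a coefficient of largest valuation -/
theorem NR_exists_max {n : ℕ} (a : Fin n → F) (i : Fin n) :
    ∃ i0, ∀ i, OF.valuation (a i) ≤ OF.valuation (a i0) := by
  obtain ⟨i0, -, h⟩ := Finset.exists_max_image Finset.univ (fun i => OF.valuation (a i))
    ⟨i, Finset.mem_univ i⟩
  exact ⟨i0, fun i => h i (Finset.mem_univ i)⟩

/-- (NR1) lifts of `kF`-independent elements: a combination which is integral has integral
coefficients -/
theorem NR_coeff_mem (hF : ∀ x : OF, rF x ≠ 0 → IsUnit x)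
    (hmem : ∀ x : F, algebraMap F E x ∈ OE ↔ x ∈ OF)
    (hcomp : ∀ (x : OF) (h : algebraMap F E (x : F) ∈ OE),
      rE ⟨_, h⟩ = algebraMap kF kE (rF x))
    {n : ℕ} (b : Fin n → OE) (hb : LinearIndependent kF (fun i => rE (b i))) (a : Fin n → F)
    (h : ∑ i, a i • ((b i : OE) : E) ∈ OE) : ∀ i, a i ∈ OF := by
  intro i
  obtain ⟨i0, hmax⟩ := NR_exists_max OF a i
  by_cases h0 : a i0 = 0
  · have h1 := hmax i
    rw [h0, map_zero] at h1
    have h2 : OF.valuation (a i) = 0 := le_antisymm h1 zero_le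
    rw [map_eq_zero] at h2
    rw [h2]
    exact OF.zero_mem
  · suffices hi0 : a i0 ∈ OF by
      rw [← ValuationSubring.valuation_le_one_iff] at hi0 ⊢
      exact (hmax i).trans hi0
    by_contra hcon
    obtain ⟨h1, h2⟩ := NR_aux OF OE rF rE hmem hcomp b hb a i0 h0 hmax
    have hd : (a i0)⁻¹ ∈ OF := (OF.mem_or_inv_mem (a i0)).resolve_left hcon
    have hd0 : rF ⟨_, hd⟩ = 0 := by
      by_contra hne
      obtain ⟨u, hu⟩ := (hF _ hne).exists_right_inv
      apply hcon
      have h3 : (a i0)⁻¹ * (u : F) = 1 := congrArg Subtype.val hu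
      have h4 : (u : F) = a i0 := by
        field_simp at h3
        exact h3
      rw [← h4]
      exact u.2
    apply h2
    have h5 : (⟨_, h1⟩ : OE)
        = ⟨algebraMap F E ((a i0)⁻¹), (hmem _).mpr hd⟩ * ⟨_, h⟩ := by
      apply Subtype.ext
      show (a i0)⁻¹ • _ = algebraMap F E ((a i0)⁻¹) * _
      rw [Algebra.smul_def]
    rw [h5, map_mul, hcomp ⟨_, hd⟩, hd0, map_zero, zero_mul]

/-- (NR2) lifts of `kF`-independent elements are `F`-independent -/
theorem NR_linearIndependent (hF : ∀ x : OF, rF x ≠ 0 → IsUnit x)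
    (hmem : ∀ x : F, algebraMap F E x ∈ OE ↔ x ∈ OF)
    (hcomp : ∀ (x : OF) (h : algebraMap F E (x : F) ∈ OE),
      rE ⟨_, h⟩ = algebraMap kF kE (rF x))
    {n : ℕ} (b : Fin n → OE) (hb : LinearIndependent kF (fun i => rE (b i))) :
    LinearIndependent F (fun i => ((b i : OE) : E)) := by
  rw [Fintype.linearIndependent_iff]
  intro a ha i
  obtain ⟨i0, hmax⟩ := NR_exists_max OF a i
  by_cases h0 : a i0 = 0
  · have h1 := hmax i
    rw [h0, map_zero] at h1
    have h2 : OF.valuation (a i) = 0 := le_antisymm h1 zero_le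
    rwa [map_eq_zero] at h2
  · exfalso
    obtain ⟨h1, h2⟩ := NR_aux OF OE rF rE hmem hcomp b hb a i0 h0 hmax
    apply h2
    have h5 : (⟨_, h1⟩ : OE) = 0 := by
      apply Subtype.ext
      show (a i0)⁻¹ • _ = (0 : E)
      rw [ha, smul_zero]
    rw [h5, map_zero]

/-- (NR3) `[kE : kF] ≤ [E : F]` -/
theorem NR_finrank_le (hF : ∀ x : OF, rF x ≠ 0 → IsUnit x) (hsurj : Function.Surjective rE)
    (hmem : ∀ x : F, algebraMap F E x ∈ OE ↔ x ∈ OF)
    (hcomp : ∀ (x : OF) (h : algebraMap F E (x : F) ∈ OE),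
      rE ⟨_, h⟩ = algebraMap kF kE (rF x)) :
    Module.finrank kF kE ≤ Module.finrank F E := by
  by_cases hfin : Module.Finite kF kE
  · let β := Module.finBasis kF kE
    choose b hb using fun i => hsurj (β i)
    have hind : LinearIndependent kF (fun i => rE (b i)) := by
      simp only [hb]
      exact β.linearIndependent
    have h1 := NR_linearIndependent OF OE rF rE hF hmem hcomp b hind
    have h2 := h1.fintype_card_le_finrank
    simpa using h2
  · rw [Module.finrank_of_not_finite hfin]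
    exact Nat.zero_le _

/-- (NR4) the norm commutes with reduction if `[E : F] ≤ [kE : kF]` -/
theorem NR_norm (hF : ∀ x : OF, rF x ≠ 0 → IsUnit x) (hsurj : Function.Surjective rE)
    (hmem : ∀ x : F, algebraMap F E x ∈ OE ↔ x ∈ OF)
    (hcomp : ∀ (x : OF) (h : algebraMap F E (x : F) ∈ OE),
      rE ⟨_, h⟩ = algebraMap kF kE (rF x))
    (hdeg : Module.finrank F E ≤ Module.finrank kF kE) (x : OE) :
    ∃ h : Algebra.norm F (x : E) ∈ OF, rF ⟨_, h⟩ = Algebra.norm kF (rE x) := by
  have hpos : 0 < Module.finrank kF kE := lt_of_lt_of_le Module.finrank_pos hdeg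
  have hfin : Module.Finite kF kE := Module.finite_of_finrank_pos hpos
  have heq : Module.finrank kF kE = Module.finrank F E :=
    le_antisymm (NR_finrank_le OF OE rF rE hF hsurj hmem hcomp) hdeg
  let β := Module.finBasis kF kE
  choose b hb using fun i => hsurj (β i)
  have hind : LinearIndependent kF (fun i => rE (b i)) := by
    simp only [hb]
    exact β.linearIndependent
  have h1 := NR_linearIndependent OF OE rF rE hF hmem hcomp b hind
  have : Nonempty (Fin (Module.finrank kF kE)) := ⟨⟨0, hpos⟩⟩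
  let B : Module.Basis (Fin (Module.finrank kF kE)) F E :=
    basisOfLinearIndependentOfCardEqFinrank h1 (by simpa using heq)
  have hB : ∀ i, B i = ((b i : OE) : E) := fun i => by
    simp [B]
  -- the matrix
  have hM : ∀ i j, Algebra.leftMulMatrix B (x : E) i j ∈ OF := by
    intro i j
    refine NR_coeff_mem OF OE rF rE hF hmem hcomp b hind
      (fun i => Algebra.leftMulMatrix B (x : E) i j) ?_ i
    have h2 : ∑ i, Algebra.leftMulMatrix B (x : E) i j • ((b i : OE) : E)
        = (x : E) * ((b j : OE) : E) := by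
      simp only [Algebra.leftMulMatrix_eq_repr_mul, ← hB]
      exact B.sum_repr _
    rw [h2]
    exact (x * b j).2
  let M' : Matrix (Fin (Module.finrank kF kE)) (Fin (Module.finrank kF kE)) OF :=
    fun i j => ⟨_, hM i j⟩
  have hM' : Algebra.leftMulMatrix B (x : E) = M'.map OF.subtype := by
    ext i j
    rfl
  have hdet : Algebra.norm F (x : E) = ((M'.det : OF) : F) := by
    rw [Algebra.norm_eq_matrix_det B, hM']
    exact (RingHom.map_det OF.subtype M').symm
  have hmemN : Algebra.norm F (x : E) ∈ OF := by rw [hdet]; exact (M'.det).2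
  refine ⟨hmemN, ?_⟩
  have h3 : (⟨_, hmemN⟩ : OF) = M'.det := Subtype.ext hdet
  rw [h3, RingHom.map_det, Algebra.norm_eq_matrix_det β]
  congr 1
  ext i j
  rw [Algebra.leftMulMatrix_eq_repr_mul]
  have h4 : rE x * β j = ∑ i, rF (M' i j) • β i := by
    have h5 : x * b j = ∑ i, (⟨algebraMap F E (M' i j : F), (hmem _).mpr (M' i j).2⟩ : OE) * b i := by
      apply Subtype.ext
      rw [AddSubmonoidClass.coe_finsetSum]
      show (x : E) * ((b j : OE) : E) = ∑ i, algebraMap F E (M' i j : F) * ((b i : OE) : E)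
      have h2 : ∑ i, Algebra.leftMulMatrix B (x : E) i j • ((b i : OE) : E)
          = (x : E) * ((b j : OE) : E) := by
        simp only [Algebra.leftMulMatrix_eq_repr_mul, ← hB]
        exact B.sum_repr _
      rw [← h2]
      apply Finset.sum_congr rfl
      intro i _
      rw [Algebra.smul_def]
    have h6 := congrArg rE h5
    rw [map_mul, map_sum, hb] at h6
    rw [h6]
    apply Finset.sum_congr rfl
    intro i _
    rw [map_mul, hcomp (M' i j), hb, Algebra.smul_def]
  rw [h4, β.repr_sum_self]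
  rfl

end NR

end

end Fermat.Agent.S40Lib
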