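import Fermat.Agent.S40.Cst.Defs
import Fermat.Agent.S40.Cst.NormRed
import Fermat.Agent.S36.ALCompat
import Fermat.Agent.S36.NrmEmb
import Fermat.Agent.S36.Mod.ValG
import Fermat.Agent.S37.Generic
import Fermat.Agent.S18.RedDataC

/-!
# S40, block (CST), batch (DG): degrees of the two degeneracy maps
-/

set_option autoImplicit false
set_option synthInstance.maxHeartbeats 400000
set_option linter.unusedSectionVars false
set_option linter.unusedVariables false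
set_option linter.style.haveILetI false

open AlgebraicCurve ModularCurve Polynomial

namespace Fermat.Agent.S40Lib

open Fermat.Agent.S18Lib Fermat.Agent.S24Lib Fermat.Agent.S28Lib Fermat.Agent.ESLib
  Fermat.Agent.S34Lib Fermat.Agent.FFLib Fermat.Agent.S36Lib Fermat.Agent.S37Lib
  Fermat.Agent.S28Lib.RelationAux

noncomputable section

variable {M p ℓ : ℕ} [NeZero M] [NeZero ℓ] [hpF : Fact p.Prime] (hpM : ¬ p ∣ M)
variable (A : ValuationSubring Qb) (hA : A.LiesOverPrime p)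

section DG

lemma DG_not_dvd (hpM : ¬ p ∣ M) (hℓ : ℓ.Prime) (hℓp : ℓ ≠ p) : ¬ p ∣ M * ℓ := by
  intro h
  rcases (Nat.Prime.dvd_mul hpF.out).1 h with h | h
  · exact hpM h
  · exact hℓp ((Nat.prime_dvd_prime_iff_eq hpF.out hℓ).1 h).symm

lemma DG_idx (hℓ : ℓ.Prime) (hℓM : ¬ ℓ ∣ M) : idx (M * ℓ) = idx M * (ℓ + 1) := by
  have hN0 : M ≠ 0 := NeZero.ne M
  show (CongruenceSubgroup.Gamma0 (M * ℓ)).index = (CongruenceSubgroup.Gamma0 M).index * (ℓ + 1)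
  rw [Fermat.Agent.S20Lib.index_Gamma0 (M * ℓ), mul_comm M ℓ,
    Fermat.Agent.S20Lib.dedekindPsi_mul_of_not_dvd hN0 hℓ hℓM,
    ← Fermat.Agent.S20Lib.index_Gamma0 M, mul_comm]

include hpM hA in
/-- (DG1) `finrank_jT_eq` at the levels `M`, `M * ℓ` + tower law + `idx (M * ℓ) = idx M * (ℓ+1)` -/
theorem finrank_aT (hℓ : ℓ.Prime) (hℓp : ℓ ≠ p) (hℓM : ¬ ℓ ∣ M) :
    letI := algebraAlong (aT A M ℓ)
    Module.finrank (FT A M) (FT A (M * ℓ)) = ℓ + 1 := by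
  letI := algebraAlong (aT A M ℓ)
  haveI : NeZero p := ⟨hpF.out.ne_zero⟩
  haveI : IsScalarTower (kk A) (FT A M) (FT A (M * ℓ)) := isScalarTower_along (aT A M ℓ)
  have h := D2_tower (K := kk A) (F₁ := FT A M) (F₂ := FT A (M * ℓ)) (jT A M)
  have hj : algebraMap (FT A M) (FT A (M * ℓ)) (jT A M) = jT A (M * ℓ) := Subtype.ext rfl
  rw [hj, finrank_jT_eq (DG_not_dvd hpM hℓ hℓp) A hA, finrank_jT_eq hpM A hA, DG_idx hℓ hℓM] at h
  exact (Nat.eq_of_mul_eq_mul_left (Nat.pos_of_ne_zero (D2_index_ne_zero M)) h).symm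

/-- (DG2) characteristic `0`: `exists_isAL (M * ℓ) ℓ M`, `w ∘ α = β`, `finrank_along_equiv`,
`S37Lib.finrank_alpha` -/
theorem finrank_heckeBeta (hℓ : ℓ.Prime) (hℓM : ¬ ℓ ∣ M) :
    letI := algebraAlong (heckeBetaBar Qb M ℓ)
    Module.finrank (FB M) (FB (M * ℓ)) = ℓ + 1 := by
  have hM1 : M = 1 * M := (one_mul M).symm
  have hN : M * ℓ = 1 * ℓ * M := by ring
  obtain ⟨w', hw'⟩ := exists_isAL M 1 M hM1 (Nat.coprime_one_left M)
  obtain ⟨w, hw⟩ := exists_isAL (M * ℓ) (1 * ℓ) M hN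
    (by rw [one_mul]; exact (Nat.Prime.coprime_iff_not_dvd hℓ).2 hℓM)
  have hsw := IsAL.swap hM1 hN (dvd_mul_right M ℓ) (dvd_refl _) hw' hw
  have key := finrank_along_equiv (heckeBetaBar Qb M ℓ).toRingHom
    (heckeAlphaBar Qb M ℓ).toRingHom (w' : FB M ≃+* FB M) (w : FB (M * ℓ) ≃+* FB (M * ℓ))
    (fun x => by
      have h1 := hsw x
      have h2 : bHom ℓ (dvd_refl (M * ℓ)) x = heckeBetaBar Qb M ℓ x :=
        Subtype.ext (by rw [coe_bHom, coe_heckeBetaBar])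
      have h3 : aHom (dvd_mul_right M ℓ) (w' x) = heckeAlphaBar Qb M ℓ (w' x) :=
        Subtype.ext (by rw [coe_aHom, coe_heckeAlphaBar])
      rw [h2, h3] at h1
      exact h1)
  exact key.symm.trans (finrank_alpha M ℓ hℓ hℓM)

include hpM hA in
lemma DG_mem_of_qExpand (x : FB M) (h : qExpand Qb ℓ (x : LaurentSeries Qb) ∈ gRing A) :
    (x : LaurentSeries Qb) ∈ gRing A := by
  by_contra hx
  have hx0 : (x : LaurentSeries Qb) ≠ 0 := by
    intro h0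
    exact hx (h0 ▸ (gRing A).zero_mem)
  rcases rr_mem_or_inv_mem M hpM A hA (x : LaurentSeries Qb) x.2 with h1 | h1
  · exact hx h1
  have hy : x⁻¹ ∈ OC M hpM A hA := h1
  have hred : redC M hpM A hA ⟨x⁻¹, hy⟩ = 0 := by
    by_contra hne
    obtain ⟨u, hu⟩ := isUnit_of_redC_ne_zero M hpM A hA ⟨x⁻¹, hy⟩ hne
    have h2 : ((u⁻¹ : (OC M hpM A hA)ˣ) : OC M hpM A hA) * ⟨x⁻¹, hy⟩ = 1 := by
      rw [← hu]; exact u.inv_mul
    have h3 : (((u⁻¹ : (OC M hpM A hA)ˣ) : OC M hpM A hA) : FB M) * x⁻¹ = 1 :=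
      congrArg (fun z : OC M hpM A hA => (z : FB M)) h2
    have hx0' : x ≠ 0 := fun h0 => hx0 (by rw [h0]; rfl)
    have h4 : (((u⁻¹ : (OC M hpM A hA)ˣ) : OC M hpM A hA) : FB M) = x := by
      field_simp at h3
      exact h3
    exact hx (h4 ▸ ((u⁻¹ : (OC M hpM A hA)ˣ) : OC M hpM A hA).2)
  have hred' : gRed A ⟨(x : LaurentSeries Qb)⁻¹, h1⟩ = 0 :=
    congrArg (fun z : FT A M => (z : LaurentSeries (kk A))) hred
  have h5 := gRed_qExpand A ℓ h1
  rw [hred', map_zero] at h5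
  have h6 : (⟨qExpand Qb ℓ (x : LaurentSeries Qb), h⟩ : gRing A) *
      ⟨qExpand Qb ℓ (x : LaurentSeries Qb)⁻¹, qExpand_mem_gRing A ℓ h1⟩ = 1 := by
    apply Subtype.ext
    show qExpand Qb ℓ (x : LaurentSeries Qb) * qExpand Qb ℓ (x : LaurentSeries Qb)⁻¹ = 1
    rw [← map_mul, mul_inv_cancel₀ hx0, map_one]
  have h7 := congrArg (gRed A) h6
  rw [map_mul, h5, mul_zero, map_one] at h7
  exact zero_ne_one h7

include hpM hA in
/-- (DG3) `NR_finrank_le` along `β` -/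
theorem finrank_bT_le (hℓ : ℓ.Prime) (hℓp : ℓ ≠ p) (hℓM : ¬ ℓ ∣ M) :
    finrankAlong (kk A) (bT A M ℓ) ≤ ℓ + 1 := by
  letI i1 := algebraAlong (heckeBetaBar Qb M ℓ)
  letI i2 := algebraAlong (bT A M ℓ)
  have hfr := finrank_heckeBeta (M := M) hℓ hℓM
  haveI : FiniteDimensional (FB M) (FB (M * ℓ)) :=
    Module.finite_of_finrank_pos (by rw [hfr]; omega)
  have hpMℓ := DG_not_dvd hpM hℓ hℓp
  have h := NR_finrank_le (OC M hpM A hA) (OC (M * ℓ) hpMℓ A hA) (redC M hpM A hA)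
    (redC (M * ℓ) hpMℓ A hA) (isUnit_of_redC_ne_zero M hpM A hA) (rd_surjective (M * ℓ) hpMℓ A hA)
    (fun x => ⟨fun hx => DG_mem_of_qExpand hpM A hA x hx,
      fun hx => qExpand_mem_gRing A ℓ hx⟩)
    (fun x hx => Subtype.ext (gRed_qExpand A ℓ x.2))
  rw [hfr] at h
  exact h

end DG

end

end Fermat.Agent.S40Lib
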