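import Fermat.Agent.S40.Cyclo

/-!
# S40, block (CST), (NE): a prime `ℓ` with `a_ℓ ≠ ℓ + 1` modulo `p`

A simple two dimensional `𝔽_p[G_ℚ]`-module with the Eichler-Shimura relations
`Frob_ℓ² - a_ℓ Frob_ℓ + ℓ = 0` has a prime `ℓ ∤ D` with `a_ℓ ≠ ℓ + 1`.
-/

set_option autoImplicit false

namespace Fermat.Agent.S40Lib

open Polynomial

local notation "Qb" => AlgebraicClosure ℚ
local notation "GQ" => (AlgebraicClosure ℚ ≃ₐ[ℚ] AlgebraicClosure ℚ)

theorem NE_pow {k B : Type*} [Field k] [Ring B] [Algebra k B] (x : B) (c : k)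
    (h : (x - 1) * (x - c • (1 : B)) = 0) (n : ℕ) :
    (x ^ n - 1) * (x ^ n - c ^ n • (1 : B)) = 0 := by
  have h1 : (X - 1 : k[X]) ∣ X ^ n - 1 := by
    simpa using sub_dvd_pow_sub_pow (X : k[X]) 1 n
  have h2 : (X - C c : k[X]) ∣ X ^ n - C (c ^ n) := by
    simpa using sub_dvd_pow_sub_pow (X : k[X]) (C c) n
  obtain ⟨q, hq⟩ := mul_dvd_mul h1 h2
  have h3 := congrArg (aeval x) hq
  simp only [map_mul, map_sub, map_pow, aeval_X, map_one, aeval_C, Algebra.algebraMap_eq_smul_one]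
    at h3
  rw [_root_.smul_pow, one_pow] at h3
  rw [h3, h, zero_mul]

/-- the relations `(g - 1)(g - ω(g)) = 0` are impossible on a simple module of dimension `2` -/
theorem NE_group {p : ℕ} [Fact p.Prime] {G : Type} [Group G]
    {V : Type} [AddCommGroup V] [Module (ZMod p) V]
    (ρ : G →* Module.End (ZMod p) V) (ω : G →* (ZMod p)ˣ)
    (hV : ∀ N : Submodule (ZMod p) V, (∀ g, ∀ x ∈ N, ρ g x ∈ N) → N = ⊥ ∨ N = ⊤)
    (hdim : Module.finrank (ZMod p) V = 2)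
    (hall : ∀ g, (ρ g - 1) * (ρ g - ((ω g : (ZMod p)ˣ) : ZMod p) • (1 : Module.End (ZMod p) V)) = 0)
    (g₀ : G) (hg₀ : ω g₀ ≠ 1) : False := by
  have hp : p.Prime := Fact.out
  haveI : Module.Finite (ZMod p) V := Module.finite_of_finrank_pos (by rw [hdim]; norm_num)
  haveI : Nontrivial V := Module.nontrivial_of_finrank_pos (R := ZMod p) (by rw [hdim]; norm_num)
  haveI : Finite V := Module.finite_of_finite (ZMod p)
  -- `ker ω` acts through a `p`-group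
  set H : Subgroup (Module.End (ZMod p) V)ˣ := ω.ker.map ρ.toHomUnits with hH
  have hHp : IsPGroup p H := by
    rintro ⟨h, n, hn, rfl⟩
    refine ⟨1, ?_⟩
    apply Subtype.ext
    apply Units.ext
    have h1 := hall n
    rw [MonoidHom.mem_ker.1 hn, Units.val_one, one_smul] at h1
    have h2 : (ρ n - 1) ^ p = 0 := by
      have he : (ρ n - 1) ^ p = (ρ n - 1) ^ (p - 2) * (ρ n - 1) ^ 2 := by
        rw [← pow_add, Nat.sub_add_cancel hp.two_le]
      rw [he, sq, h1, mul_zero]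
    haveI : CharP (Module.End (ZMod p) V) p :=
      charP_of_injective_algebraMap (algebraMap (ZMod p) (Module.End (ZMod p) V)).injective p
    have h3 : ρ n ^ p - 1 = 0 := by
      rw [← h2, sub_pow_char_of_commute p (Commute.one_right _), one_pow]
    rw [pow_one]
    show ((ρ.toHomUnits n) ^ p : (Module.End (ZMod p) V)ˣ).val = 1
    rw [Units.val_pow_eq_pow_val]
    exact sub_eq_zero.1 h3
  have hcard : p ∣ Nat.card V := by
    rw [Module.natCard_eq_pow_finrank (K := ZMod p) (V := V), hdim, Nat.card_zmod]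
    exact dvd_pow_self p two_ne_zero
  have h0 : (0 : V) ∈ MulAction.fixedPoints H V := by
    intro h
    show ((h : (Module.End (ZMod p) V)ˣ) : Module.End (ZMod p) V) 0 = 0
    exact map_zero _
  obtain ⟨v, hv, hv0⟩ := hHp.exists_fixed_point_of_prime_dvd_card_of_fixed_point V hcard h0
  -- the fixed space of `ker ω`
  let F : Submodule (ZMod p) V :=
    { carrier := {x | ∀ n ∈ ω.ker, ρ n x = x}
      zero_mem' := fun n _ => map_zero _
      add_mem' := fun {x y} hx hy n hn => by rw [map_add, hx n hn, hy n hn]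
      smul_mem' := fun c x hx n hn => by rw [map_smul, hx n hn] }
  have hFst : ∀ g, ∀ x ∈ F, ρ g x ∈ F := by
    intro g x hx n hn
    have h1 : g⁻¹ * n * g ∈ ω.ker := by
      rw [MonoidHom.mem_ker] at hn ⊢
      rw [map_mul, map_mul, hn, mul_one, ← map_mul, inv_mul_cancel, map_one]
    have h2 := hx _ h1
    have h3 : ρ n (ρ g x) = ρ g (ρ (g⁻¹ * n * g) x) := by
      rw [← Module.End.mul_apply, ← Module.End.mul_apply, ← map_mul, ← map_mul]
      congr 2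
      group
    rw [h3, h2]
  have hvF : v ∈ F := by
    intro n hn
    exact hv ⟨ρ.toHomUnits n, n, hn, rfl⟩
  have hFtop : F = ⊤ := by
    rcases hV F hFst with h | h
    · rw [h, Submodule.mem_bot] at hvF
      exact absurd hvF.symm hv0
    · exact h
  have hker : ∀ n ∈ ω.ker, ρ n = 1 := by
    intro n hn
    ext x
    have : x ∈ F := by rw [hFtop]; trivial
    exact this n hn
  -- the image is commutative
  have hcomm : ∀ g h, ρ g * ρ h = ρ h * ρ g := by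
    intro g h
    have h1 : h⁻¹ * g⁻¹ * h * g ∈ ω.ker := by
      rw [MonoidHom.mem_ker]
      simp only [map_mul, map_inv]
      rw [mul_comm (ω h)⁻¹, mul_assoc (ω g)⁻¹, inv_mul_cancel, mul_one, inv_mul_cancel]
    have h2 := hker _ h1
    calc ρ g * ρ h = ρ g * ρ h * ρ (h⁻¹ * g⁻¹ * h * g) := by rw [h2, mul_one]
      _ = ρ h * ρ g := by
        rw [← map_mul, ← map_mul, ← map_mul]
        congr 1
        group
  -- the eigenspace of `g₀`
  have hUst : ∀ g, ∀ x ∈ LinearMap.ker (ρ g₀ - 1), ρ g x ∈ LinearMap.ker (ρ g₀ - 1) := by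
    intro g x hx
    rw [LinearMap.mem_ker, LinearMap.sub_apply, Module.End.one_apply, sub_eq_zero] at hx ⊢
    rw [← Module.End.mul_apply, hcomm, Module.End.mul_apply, hx]
  have hq : ∀ g, ρ g * ρ g - (1 + ((ω g : (ZMod p)ˣ) : ZMod p)) • ρ g +
      ((ω g : (ZMod p)ˣ) : ZMod p) • (1 : Module.End (ZMod p) V) = 0 := by
    intro g
    rw [← hall g]
    simp only [sub_mul, mul_sub, one_mul, mul_one, add_smul, one_smul, mul_smul_comm, smul_sub]
    abel
  have hω : ((ω g₀ : (ZMod p)ˣ) : ZMod p) ≠ 1 := fun h => hg₀ (Units.ext h)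
  rcases hV _ hUst with h | h
  · -- `ρ g₀ = ω g₀`
    have h1 : ρ g₀ = ((ω g₀ : (ZMod p)ˣ) : ZMod p) • (1 : Module.End (ZMod p) V) := by
      ext x
      have h2 := LinearMap.congr_fun (hall g₀) x
      rw [Module.End.mul_apply, LinearMap.zero_apply] at h2
      have h3 : (ρ g₀ - ((ω g₀ : (ZMod p)ˣ) : ZMod p) • (1 : Module.End (ZMod p) V)) x ∈
          LinearMap.ker (ρ g₀ - 1) := h2
      rw [h, Submodule.mem_bot, LinearMap.sub_apply, sub_eq_zero] at h3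
      exact h3
    have h2 := (QRLib.q1_scalar hq hV (by rw [hdim]; norm_num) g₀ _ h1).2
    have h3 : ((ω g₀ : (ZMod p)ˣ) : ZMod p) * 1 =
        ((ω g₀ : (ZMod p)ˣ) : ZMod p) * ((ω g₀ : (ZMod p)ˣ) : ZMod p) := by
      rw [mul_one, ← sq]
      exact h2
    exact hω (mul_left_cancel₀ (Units.ne_zero _) h3).symm
  · -- `ρ g₀ = 1`
    have h1 : ρ g₀ = (1 : ZMod p) • (1 : Module.End (ZMod p) V) := by
      rw [one_smul]
      ext x
      have h2 : x ∈ LinearMap.ker (ρ g₀ - 1) := by rw [h]; trivial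
      rw [LinearMap.mem_ker, LinearMap.sub_apply, sub_eq_zero] at h2
      exact h2
    have h2 := (QRLib.q1_scalar hq hV (by rw [hdim]; norm_num) g₀ _ h1).2
    rw [one_pow] at h2
    exact hω h2

/-- **(NE)** a prime `ℓ ∤ D` with `a_ℓ ≠ ℓ + 1` -/
theorem exists_prime_a_ne {p : ℕ} [Fact p.Prime] (hp2 : p ≠ 2)
    {V : Type} [AddCommGroup V] [Module (ZMod p) V]
    (ρ : GQ →* Module.End (ZMod p) V) (hlev : GaloisFactorsThroughFiniteLevel ρ)
    (hV : ∀ N : Submodule (ZMod p) V, (∀ g, ∀ x ∈ N, ρ g x ∈ N) → N = ⊥ ∨ N = ⊤)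
    (hdim : Module.finrank (ZMod p) V = 2) (D : ℕ) (hD : D ≠ 0) (a : ℕ → ZMod p)
    (hquad : ∀ ℓ : ℕ, ℓ.Prime → ¬ ℓ ∣ D → ∀ 𝔄 : ValuationSubring Qb, 𝔄.LiesOverPrime ℓ →
      ∀ σ : GQ, 𝔄.IsFrobeniusAt σ ℓ →
        ρ σ * ρ σ - a ℓ • ρ σ + (ℓ : ZMod p) • (1 : Module.End (ZMod p) V) = 0) :
    ∃ ℓ : ℕ, ℓ.Prime ∧ ¬ ℓ ∣ D ∧ a ℓ ≠ (ℓ : ZMod p) + 1 := by
  by_contra hcon
  push Not at hcon
  have hp : p.Prime := Fact.out
  obtain ⟨ζ, hζ⟩ := HasEnoughRootsOfUnity.exists_primitiveRoot Qb p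
  obtain ⟨ω, ⟨Lω, hLω, hω1⟩, hωF, -, hωc⟩ := exists_cyclo_zeta p hζ
  obtain ⟨Lρ, hLρ, hρ1⟩ := hlev
  have hLfin : FiniteDimensional ℚ (Lρ ⊔ Lω : IntermediateField ℚ Qb) :=
    IntermediateField.finiteDimensional_sup Lρ Lω
  have hL1 : ∀ σ : GQ, (∀ x ∈ (Lρ ⊔ Lω : IntermediateField ℚ Qb), σ x = x) →
      ρ σ = 1 ∧ ω σ = 1 := fun σ hσ =>
    ⟨hρ1 σ fun x hx => hσ x ((le_sup_left : Lρ ≤ Lρ ⊔ Lω) hx),
      hω1 σ fun x hx => hσ x ((le_sup_right : Lω ≤ Lρ ⊔ Lω) hx)⟩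
  set U : Subgroup GQ := (ρ.toHomUnits.prod ω).ker with hUdef
  have hUmem : ∀ σ : GQ, σ ∈ U ↔ ρ σ = 1 ∧ ω σ = 1 := by
    intro σ
    rw [hUdef, MonoidHom.mem_ker, MonoidHom.prod_apply, Prod.mk_eq_one, Units.ext_iff]
    simp
  have hUn : U.Normal := MonoidHom.normal_ker _
  have hUo : IsOpen (U : Set GQ) := by
    refine Subgroup.isOpen_mono (H₁ := (Lρ ⊔ Lω : IntermediateField ℚ Qb).fixingSubgroup) ?_
      (IntermediateField.fixingSubgroup_isOpen _)
    intro σ hσ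
    rw [hUmem]
    apply hL1
    intro x hx
    exact (IntermediateField.mem_fixingSubgroup_iff _ σ).1 hσ x hx
  have hall : ∀ g : GQ, (ρ g - 1) *
      (ρ g - ((ω g : (ZMod p)ˣ) : ZMod p) • (1 : Module.End (ZMod p) V)) = 0 := by
    intro g
    obtain ⟨ℓ, A, τ, n, -, hℓ, hℓS, hA, hτ, hg, -⟩ :=
      Fermat.Agent.ChebLib.weak_chebotarev U hUo hUn g (D * p).primeFactors
    have hℓDp : ¬ ℓ ∣ D * p := fun h =>
      hℓS (Nat.mem_primeFactors.2 ⟨hℓ, h, mul_ne_zero hD hp.ne_zero⟩)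
    have hℓD : ¬ ℓ ∣ D := fun h => hℓDp (h.mul_right p)
    have hℓp : ℓ ≠ p := fun h => hℓDp (h ▸ dvd_mul_left _ _)
    obtain ⟨h1, h2⟩ := (hUmem _).1 hg
    have e1 : ρ g = ρ τ ^ n := by
      calc ρ g = ρ g * ρ (g⁻¹ * τ ^ n) := by rw [h1, mul_one]
        _ = ρ τ ^ n := by rw [← map_mul, mul_inv_cancel_left, map_pow]
    have e2 : ω g = ω τ ^ n := by
      calc ω g = ω g * ω (g⁻¹ * τ ^ n) := by rw [h2, mul_one]
        _ = ω τ ^ n := by rw [← map_mul, mul_inv_cancel_left, map_pow]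
    have hq := hquad ℓ hℓ hℓD A hA τ hτ
    rw [hcon ℓ hℓ hℓD] at hq
    have hq' : (ρ τ - 1) * (ρ τ - (ℓ : ZMod p) • (1 : Module.End (ZMod p) V)) = 0 := by
      rw [← hq]
      simp only [sub_mul, mul_sub, one_mul, mul_one, add_smul, one_smul, mul_smul_comm, smul_sub]
      abel
    rw [e1, e2, Units.val_pow_eq_pow_val, hωF ℓ hℓ hℓp A hA τ hτ]
    exact NE_pow _ _ hq' n
  refine NE_group ρ ω hV hdim hall complexConjugation ?_
  intro h
  rw [h, Units.val_one] at hωc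
  have h2 : ((2 : ℕ) : ZMod p) = 0 := by
    push_cast
    linear_combination hωc
  rw [ZMod.natCast_eq_zero_iff] at h2
  exact hp2 ((Nat.prime_dvd_prime_iff_eq hp Nat.prime_two).1 h2)

end Fermat.Agent.S40Lib
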