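import Fermat.Agent.S37.FENorm

/-!
# S40, block (CST): the norm formula `∑_{w | v} ord_w f = ord_v (N_{F'/F} f)` in ANY characteristic

Copy of `S37/FENorm.lean` with `Algebra.norm_eq_prod_embeddings` (separable extensions) replaced by
`Algebra.norm_eq_prod_roots`.
-/

set_option autoImplicit false

open AlgebraicCurve

namespace Fermat.Agent.S40Lib

open Fermat.Agent.S18Lib Fermat.Agent.S24Lib Fermat.Agent.FFLib Fermat.Agent.S37Lib

section Tower

variable {K F F' : Type*} [Field K] [Field F] [Field F'] [Algebra K F] [Algebra K F']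
  [Algebra F F'] [IsScalarTower K F F']

omit [Field K] [Algebra K F] [Algebra K F'] [IsScalarTower K F F'] in
/-- every root of the minimal polynomial is a conjugate -/
theorem FEG_exists_conj [Module.Finite F F'] (f : F') {y : AlgebraicClosure F'}
    (hy : y ∈ (minpoly F f).aroots (AlgebraicClosure F')) :
    ∃ σ : F' →ₐ[F] AlgebraicClosure F', σ f = y := by
  rw [Polynomial.mem_aroots] at hy
  exact IntermediateField.exists_algHom_of_splits_of_aeval
    (fun s => ⟨IsIntegral.of_finite F s, IsAlgClosed.splits _⟩) hy.2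

theorem fe_norm_nonneg_gen (hF' : IsFF K F') [Module.Finite F F'] (v : Place K F)
    (f : F') (hf : ∀ w : Place K F', w.restrict F = v → 0 ≤ w.ord f) :
    0 ≤ v.ord (Algebra.norm F f) := by
  obtain ⟨O', hO1, hO2⟩ := lt_exists_extension v (AlgebraicClosure F')
  have hmem : algebraMap F (AlgebraicClosure F') (Algebra.norm F f) ∈ O' := by
    rw [Algebra.norm_eq_prod_roots (AlgebraicClosure F') (IsAlgClosed.splits _)]
    refine pow_mem (multiset_prod_mem _ ?_) _
    intro y hy
    obtain ⟨σ, rfl⟩ := FEG_exists_conj f hy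
    obtain ⟨Q, hQv, hQ⟩ := FENorm_conj hF' v O' hO1 hO2 σ
    exact (hQ f).mp (hf Q hQv)
  exact FENorm_nonneg_of_mem v O' hO2 hmem

theorem fe_norm_pos_gen (hF' : IsFF K F') [Module.Finite F F'] (v : Place K F)
    (f : F') (hf0 : f ≠ 0) (hf : ∀ w : Place K F', w.restrict F = v → 0 ≤ w.ord f)
    (w₀ : Place K F') (hw₀ : w₀.restrict F = v) (hpos : 0 < w₀.ord f) :
    0 < v.ord (Algebra.norm F f) := by
  classical
  obtain ⟨O', hO1', hO2'⟩ := lt_exists_extension w₀ (AlgebraicClosure F')
  have he : 0 < w₀.ramificationIndex F := w₀.ramificationIndex_pos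
  have hO1 : ∀ x : F, 0 ≤ v.ord x → algebraMap F (AlgebraicClosure F') x ∈ O' := by
    intro x hx
    rw [IsScalarTower.algebraMap_apply F F' (AlgebraicClosure F')]
    apply hO1'
    rw [w₀.ord_restrict x, hw₀]
    positivity
  have hO2 : ∀ x : F, 0 < v.ord x → O'.valuation (algebraMap F (AlgebraicClosure F') x) < 1 := by
    intro x hx
    rw [IsScalarTower.algebraMap_apply F F' (AlgebraicClosure F')]
    apply hO2'
    rw [w₀.ord_restrict x, hw₀]
    positivity
  have hint : IsIntegral F f := IsIntegral.of_finite F f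
  set y₀ : AlgebraicClosure F' := algebraMap F' (AlgebraicClosure F') f with hy₀
  have hy₀mem : y₀ ∈ (minpoly F f).aroots (AlgebraicClosure F') := by
    rw [Polynomial.mem_aroots]
    refine ⟨minpoly.ne_zero hint, ?_⟩
    rw [hy₀, Polynomial.aeval_algebraMap_apply, minpoly.aeval, map_zero]
  have hlt0 : O'.valuation ((minpoly F f).aroots (AlgebraicClosure F')).prod < 1 := by
    obtain ⟨s, hs⟩ := Multiset.exists_cons_of_mem hy₀mem
    rw [hs, Multiset.prod_cons, map_mul, mul_comm]
    have h1 : s.prod ∈ O' := by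
      refine multiset_prod_mem _ ?_
      intro y hy
      obtain ⟨σ, rfl⟩ := FEG_exists_conj f (by rw [hs]; exact Multiset.mem_cons_of_mem hy)
      obtain ⟨Q, hQv, hQ⟩ := FENorm_conj hF' v O' hO1 hO2 σ
      exact (hQ f).mp (hf Q hQv)
    calc _ ≤ 1 * O'.valuation y₀ := mul_le_mul_left ((O'.valuation_le_one_iff _).mpr h1) _
      _ = O'.valuation y₀ := one_mul _
      _ < 1 := hO2' f hpos
  have hlt : O'.valuation (algebraMap F (AlgebraicClosure F') (Algebra.norm F f)) < 1 := by
    rw [Algebra.norm_eq_prod_roots (AlgebraicClosure F') (IsAlgClosed.splits _), map_pow]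
    have hpos' : 0 < Module.finrank (IntermediateField.adjoin F {f}) F' := Module.finrank_pos
    exact pow_lt_one₀ zero_le hlt0 hpos'.ne'
  exact FENorm_pos_of_lt v O' hO1 (Algebra.norm_ne_zero_iff.mpr hf0) hlt

theorem fe_norm_gen [IsAlgClosed K] (hF : IsFF K F) (hF' : IsFF K F')
    [Module.Finite F F'] : Divisor.PushforwardNormFormula K F F' := by
  classical
  haveI := hasPrincipalDivisors hF'
  intro f hf D hD v
  set S : Finset (Place K F') := v.fiber F' with hS
  -- local parameters
  have hex : ∀ w : Place K F', ∃ t : F', w ∈ S → (t ≠ 0 ∧ ∀ w' ∈ S, w'.ord t = if w' = w then 1 else 0) := by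
    intro w
    obtain ⟨z, hz⟩ := weak_approximation S (fun _ => 0) (fun w' => if w' = w then 1 else 0)
    refine ⟨z, fun hw => ⟨?_, fun w' hw' => ?_⟩⟩
    · simpa using (hz w hw).1
    · simpa using (hz w' hw').2
  choose t ht using hex
  have ht0 : ∀ w ∈ S, t w ≠ 0 := fun w hw => (ht w hw).1
  -- the general formula
  have key : ∀ g : F', g ≠ 0 → v.ord (Algebra.norm F g)
      = ∑ w ∈ S, w.ord g * v.ord (Algebra.norm F (t w)) := by
    intro g hg
    set P : F' := ∏ w ∈ S, t w ^ w.ord g with hP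
    have hP0 : P ≠ 0 := Finset.prod_ne_zero_iff.mpr fun w hw => zpow_ne_zero _ (ht0 w hw)
    have hordP : ∀ w' ∈ S, w'.ord P = w'.ord g := by
      intro w' hw'
      rw [hP, FENorm_ord_prod_zpow w' S t ht0]
      rw [Finset.sum_eq_single w']
      · rw [(ht w' hw').2 w' hw', if_pos rfl, mul_one]
      · intro w hw hne
        rw [(ht w hw).2 w' hw', if_neg (Ne.symm hne), mul_zero]
      · intro h; exact absurd hw' h
    have h1 : 0 ≤ v.ord (Algebra.norm F (g * P⁻¹)) := by
      apply fe_norm_nonneg_gen hF' v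
      intro w hw
      rw [w.ord_mul hg (inv_ne_zero hP0), w.ord_inv, hordP w (Place.mem_fiber.mpr hw)]
      omega
    have h2 : 0 ≤ v.ord (Algebra.norm F (g⁻¹ * P)) := by
      apply fe_norm_nonneg_gen hF' v
      intro w hw
      rw [w.ord_mul (inv_ne_zero hg) hP0, w.ord_inv, hordP w (Place.mem_fiber.mpr hw)]
      omega
    have hNg : Algebra.norm F g ≠ 0 := Algebra.norm_ne_zero_iff.mpr hg
    have hNP : Algebra.norm F P ≠ 0 := Algebra.norm_ne_zero_iff.mpr hP0
    rw [map_mul, FENorm_norm_inv, v.ord_mul hNg (inv_ne_zero hNP), v.ord_inv] at h1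
    rw [map_mul, FENorm_norm_inv, v.ord_mul (inv_ne_zero hNg) hNP, v.ord_inv] at h2
    have h3 : v.ord (Algebra.norm F g) = v.ord (Algebra.norm F P) := by omega
    rw [h3, hP, FENorm_lam_prod_zpow v S t ht0]
  have hc : ∀ w ∈ S, 1 ≤ v.ord (Algebra.norm F (t w)) := by
    intro w hw
    have : 0 < v.ord (Algebra.norm F (t w)) := by
      apply fe_norm_pos_gen hF' v (t w) (ht0 w hw) _ w (Place.mem_fiber.mp hw)
      · rw [(ht w hw).2 w hw, if_pos rfl]; exact one_pos
      · intro w' hw'
        rw [(ht w hw).2 w' (Place.mem_fiber.mpr hw')]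
        split_ifs <;> omega
    omega
  -- the uniformizer
  obtain ⟨π, hπ⟩ := exists_ord_eq_one v
  have hπ0 : π ≠ 0 := by rintro rfl; simp at hπ
  have h4 := key (algebraMap F F' π) ((_root_.map_ne_zero _).2 hπ0)
  rw [Algebra.norm_algebraMap, ← zpow_natCast, v.ord_zpow, hπ, mul_one] at h4
  have h5 := (fe_fundamental hF hF').sum_ramificationIndex_mul_deg v
  rw [deg_eq_one hF v, ← hS] at h5
  have h6 : ∑ w ∈ S, (w.ramificationIndex F : ℤ) * (v.ord (Algebra.norm F (t w)) - 1) = 0 := by
    have e1 : ∑ w ∈ S, (w.ramificationIndex F : ℤ) * (w.deg : ℤ)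
        = ∑ w ∈ S, (w.ramificationIndex F : ℤ) :=
      Finset.sum_congr rfl fun w _ => by rw [deg_eq_one hF' w]; simp
    have e2 : ∑ w ∈ S, w.ord (algebraMap F F' π) * v.ord (Algebra.norm F (t w))
        = ∑ w ∈ S, (w.ramificationIndex F : ℤ) * v.ord (Algebra.norm F (t w)) :=
      Finset.sum_congr rfl fun w hw => by
        rw [w.ord_restrict π, Place.mem_fiber.mp hw, hπ, mul_one]
    rw [e1] at h5
    rw [e2] at h4
    simp only [mul_sub, mul_one, Finset.sum_sub_distrib]
    rw [← h4, h5]
    simp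
  have h7 : ∀ w ∈ S, v.ord (Algebra.norm F (t w)) = 1 := by
    intro w hw
    have h8 := (Finset.sum_eq_zero_iff_of_nonneg (fun w hw =>
      mul_nonneg (Int.natCast_nonneg _) (by have := hc w hw; omega))).mp h6 w hw
    have he : (0 : ℤ) < (w.ramificationIndex F : ℤ) := by
      exact_mod_cast w.ramificationIndex_pos (F := F)
    rcases mul_eq_zero.mp h8 with h | h
    · omega
    · omega
  rw [key f hf, Divisor.pushforward_apply]
  have e3 : ∑ w ∈ S, w.ord f * v.ord (Algebra.norm F (t w))
      = ∑ w ∈ S, (if w.restrict F = v then D w * (w.inertiaDeg F : ℤ) else 0) :=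
    Finset.sum_congr rfl fun w hw => by
      rw [h7 w hw, if_pos (Place.mem_fiber.mp hw), fe_inertiaDeg hF hF', hD, Nat.cast_one]
  rw [e3]
  have e4 : ∑ w ∈ D.support, (if w.restrict F = v then D w * (w.inertiaDeg F : ℤ) else 0)
      = ∑ w ∈ D.support ∪ S, (if w.restrict F = v then D w * (w.inertiaDeg F : ℤ) else 0) :=
    Finset.sum_subset Finset.subset_union_left fun w _ hw => by
      rw [Finsupp.notMem_support_iff.mp hw]; simp
  have e5 : ∑ w ∈ S, (if w.restrict F = v then D w * (w.inertiaDeg F : ℤ) else 0)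
      = ∑ w ∈ D.support ∪ S, (if w.restrict F = v then D w * (w.inertiaDeg F : ℤ) else 0) :=
    Finset.sum_subset Finset.subset_union_right fun w _ hw => by
      rw [if_neg fun h => hw (Place.mem_fiber.mpr h)]
  rw [e4, e5]

end Tower

theorem fe_norm_along_gen {K F F' : Type*} [Field K] [Field F] [Field F'] [Algebra K F]
    [Algebra K F'] [IsAlgClosed K] (hF : IsFF K F) (hF' : IsFF K F') (φ : F →ₐ[K] F')
    (hfin : FiniteAlong K φ) : NormFormulaAlong K φ hfin := by
  letI := algebraAlong φ
  haveI := isScalarTower_along φ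
  haveI : Module.Finite F F' := hfin
  exact fe_norm_gen hF hF'

end Fermat.Agent.S40Lib
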