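import Fermat.Agent.S40.Cst.FormalEta

/-!
# S40, block (CST), batch (FD2): `heckeMul ℓ Δ = c Δ^(ℓ+1)` (formal)
-/

set_option autoImplicit false
set_option synthInstance.maxHeartbeats 400000
set_option linter.unusedSectionVars false
set_option linter.unusedVariables false

open AlgebraicCurve ModularCurve Polynomial

namespace Fermat.Agent.S40Lib

open Fermat.Agent.S18Lib Fermat.Agent.S24Lib Fermat.Agent.S28Lib Fermat.Agent.ESLib
  Fermat.Agent.S34Lib Fermat.Agent.FFLib Fermat.Agent.S36Lib Fermat.Agent.S37Lib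
  Fermat.Agent.S28Lib.RelationAux

noncomputable section

section FD

variable {κ : Type} [Field κ] {ℓ : ℕ} [NeZero ℓ]

theorem FD_heckeMul_one : heckeMul ℓ (1 : LaurentSeries κ) = 1 := by
  have h := heckeMul_C (K := κ) ℓ 1
  rwa [one_pow, mul_one, map_one] at h

theorem FD_heckeMul_pow (hζ : ∃ ζ : κ, IsPrimitiveRoot ζ ℓ) (f : LaurentSeries κ) (n : ℕ) :
    heckeMul ℓ (f ^ n) = heckeMul ℓ f ^ n := by
  induction n with
  | zero => rw [pow_zero, pow_zero, FD_heckeMul_one]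
  | succ n ih => rw [pow_succ, heckeMul_mul ℓ hζ, ih, pow_succ]

theorem FD_heckeMul_inv (hζ : ∃ ζ : κ, IsPrimitiveRoot ζ ℓ) {f : LaurentSeries κ} (hf : f ≠ 0) :
    heckeMul ℓ f⁻¹ = (heckeMul ℓ f)⁻¹ := by
  have h : heckeMul ℓ f⁻¹ * heckeMul ℓ f = 1 := by
    rw [← heckeMul_mul ℓ hζ, inv_mul_cancel₀ hf, FD_heckeMul_one]
  exact eq_inv_of_mul_eq_one_left h

theorem FD_twist_single_one (z : κˣ) :
    twist z (HahnSeries.single (1 : ℤ) (1 : κ)) =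
      HahnSeries.C (z : κ) * HahnSeries.single (1 : ℤ) (1 : κ) := by
  ext n
  rw [twist_coeff, HahnSeries.C_mul_eq_smul, HahnSeries.coeff_smul, HahnSeries.coeff_single]
  split_ifs with h
  · subst h; simp
  · simp

/-- (FD2) -/
theorem heckeMul_single_one (hζ : ∃ ζ : κ, IsPrimitiveRoot ζ ℓ) :
    ∃ c : κ, c ≠ 0 ∧ heckeMul ℓ (HahnSeries.single (1 : ℤ) (1 : κ)) =
      HahnSeries.C c * HahnSeries.single (1 : ℤ) (1 : κ) ^ (ℓ + 1) := by
  letI : Fintype (rootsOfUnity ℓ κ) := Fintype.ofFinite _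
  have hcard : Fintype.card (rootsOfUnity ℓ κ) = ℓ := by
    obtain ⟨ζ, hζ⟩ := hζ
    rw [← Nat.card_eq_fintype_card, hζ.card_rootsOfUnity]
  refine ⟨((∏ z : rootsOfUnity ℓ κ, (z : κˣ) : κˣ) : κ), Units.ne_zero _, ?_⟩
  have h1 : prodTwist ℓ (HahnSeries.single (1 : ℤ) (1 : κ)) =
      HahnSeries.C ((∏ z : rootsOfUnity ℓ κ, (z : κˣ) : κˣ) : κ) *
        HahnSeries.single (1 : ℤ) (1 : κ) ^ ℓ := by
    unfold prodTwist
    simp only [FD_twist_single_one]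
    rw [Finset.prod_mul_distrib, Finset.prod_const, Finset.card_univ, hcard, Units.coe_prod,
      map_prod]
  have h2 : normL ℓ (HahnSeries.single (1 : ℤ) (1 : κ)) =
      HahnSeries.C ((∏ z : rootsOfUnity ℓ κ, (z : κˣ) : κˣ) : κ) *
        HahnSeries.single (1 : ℤ) (1 : κ) := by
    apply qExpand_injective (R := κ) ℓ
    rw [qExpand_normL ℓ hζ, h1, map_mul, qExpand_C, qExpand_single, HahnSeries.single_pow, one_pow]
    simp
  rw [heckeMul, h2, qExpand_single, pow_succ, HahnSeries.single_pow, one_pow]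
  simp only [smul_eq_mul, mul_one, nsmul_eq_mul]
  ring

/-- (FD3) -/
theorem heckeMul_DL (hℓ : ℓ.Prime) (hζ : ∃ ζ : κ, IsPrimitiveRoot ζ ℓ) :
    ∃ c : κ, c ≠ 0 ∧ heckeMul ℓ (DL κ) = HahnSeries.C c * DL κ ^ (ℓ + 1) := by
  obtain ⟨c, hc, h⟩ := heckeMul_single_one (κ := κ) (ℓ := ℓ) hζ
  refine ⟨c, hc, ?_⟩
  rw [DL_eq, dedekindEtaUnit, map_pow, heckeMul_mul ℓ hζ, FD_heckeMul_pow hζ,
    heckeMul_etaProd hℓ hζ, h]
  ring

/-- (FD4) -/
theorem heckeMul_phiL_inv {p : ℕ} [Fact p.Prime] [CharP κ p] (hℓ : ℓ.Prime)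
    (hζ : ∃ ζ : κ, IsPrimitiveRoot ζ ℓ) :
    ∃ c : κ, c ≠ 0 ∧ heckeMul ℓ ((phiL κ p)⁻¹) = HahnSeries.C c * ((phiL κ p)⁻¹) ^ (ℓ + 1) := by
  obtain ⟨c, hc, h⟩ := heckeMul_DL (κ := κ) (ℓ := ℓ) hℓ hζ
  refine ⟨(c ^ (p - 1))⁻¹, inv_ne_zero (pow_ne_zero _ hc), ?_⟩
  rw [FD_heckeMul_inv hζ (phiL_ne_zero κ p), phiL_char, FD_heckeMul_pow hζ, h, mul_pow, mul_inv,
    map_inv₀, map_pow, inv_pow, ← pow_mul, ← pow_mul, mul_comm (ℓ + 1)]

end FD

end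

end Fermat.Agent.S40Lib
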