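import Fermat.Agent.S40.Cst.Defs

/-!
# S40, block (CST), batch (FD1): `heckeMul ℓ η = η^(ℓ+1)` for `η = ∏ (1 - q^n)` (purely formal)
-/

set_option autoImplicit false
set_option synthInstance.maxHeartbeats 400000
set_option linter.unusedSectionVars false
set_option linter.unusedVariables false

open AlgebraicCurve ModularCurve Polynomial

namespace Fermat.Agent.S40Lib

open Fermat.Agent.S18Lib Fermat.Agent.S24Lib Fermat.Agent.S28Lib Fermat.Agent.ESLib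
  Fermat.Agent.S34Lib Fermat.Agent.FFLib Fermat.Agent.S36Lib Fermat.Agent.S37Lib
  Fermat.Agent.S28Lib.RelationAux

noncomputable section

/-! ### finite Euler products and truncation -/

/-- the finite Euler product `∏_{1 ≤ n ≤ N} (1 - X^n)` -/
def FE_P (R : Type*) [CommRing R] (N : ℕ) : PowerSeries R :=
  ∏ n ∈ Finset.range N, (1 - PowerSeries.X ^ (n + 1))

theorem FE_tail (R : Type*) [CommRing R] (N : ℕ) (t : Finset ℕ) (ht : ∀ n ∈ t, N ≤ n) :
    (PowerSeries.X : PowerSeries R) ^ (N + 1) ∣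
      ∏ n ∈ t, (1 - (PowerSeries.X : PowerSeries R) ^ (n + 1)) - 1 := by
  classical
  induction t using Finset.induction_on with
  | empty => simp
  | insert a s ha ih =>
    rw [Finset.prod_insert ha]
    have h1 := ih (fun n hn => ht n (Finset.mem_insert_of_mem hn))
    have h2 : (PowerSeries.X : PowerSeries R) ^ (N + 1) ∣ PowerSeries.X ^ (a + 1) :=
      pow_dvd_pow _ (by have := ht a (Finset.mem_insert_self _ _); omega)
    have h3 : (1 - (PowerSeries.X : PowerSeries R) ^ (a + 1)) *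
        ∏ n ∈ s, (1 - (PowerSeries.X : PowerSeries R) ^ (n + 1)) - 1 =
        (∏ n ∈ s, (1 - (PowerSeries.X : PowerSeries R) ^ (n + 1)) - 1) -
          PowerSeries.X ^ (a + 1) * ∏ n ∈ s, (1 - (PowerSeries.X : PowerSeries R) ^ (n + 1)) := by
      ring
    rw [h3]
    exact dvd_sub h1 (h2.mul_right _)

theorem FE_trunc_int (N : ℕ) :
    (PowerSeries.X : PowerSeries ℤ) ^ (N + 1) ∣ etaProd - FE_P ℤ N := by
  classical
  rw [PowerSeries.X_pow_dvd_iff]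
  intro m hm
  rw [map_sub, sub_eq_zero]
  have h4 : Filter.Tendsto (fun s : Finset ℕ =>
      (∏ n ∈ s, (1 - PowerSeries.X ^ (n + 1) : PowerSeries ℤ)).coeff m) Filter.atTop
      (nhds (etaProd.coeff m)) := by
    open scoped PowerSeries.WithPiTopology in
    exact ((PowerSeries.WithPiTopology.continuous_coeff ℤ m).tendsto _).comp
      (PowerSeries.WithPiTopology.multipliable_one_sub_X_pow ℤ).hasProd
  rw [nhds_discrete, Filter.tendsto_pure, Filter.eventually_atTop] at h4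
  obtain ⟨s₀, hs₀⟩ := h4
  have h5 := hs₀ (s₀ ∪ Finset.range N) Finset.subset_union_left
  rw [← h5, ← Finset.prod_sdiff (Finset.subset_union_right : Finset.range N ⊆ s₀ ∪ Finset.range N)]
  have h6 := FE_tail ℤ N ((s₀ ∪ Finset.range N) \ Finset.range N) (by
    intro n hn
    have := (Finset.mem_sdiff.mp hn).2
    rw [Finset.mem_range] at this
    omega)
  have h7 := (PowerSeries.X_pow_dvd_iff.mp (h6.mul_right (FE_P ℤ N))) m hm
  rw [sub_mul, one_mul, map_sub, sub_eq_zero] at h7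
  exact h7

theorem FE_map_P {R S : Type*} [CommRing R] [CommRing S] (f : R →+* S) (N : ℕ) :
    PowerSeries.map f (FE_P R N) = FE_P S N := by
  simp [FE_P, map_prod]

/-- `η` over `κ` -/
def FE_E (R : Type*) [CommRing R] : PowerSeries R := etaProd.map (Int.castRingHom R)

theorem FE_trunc (R : Type*) [CommRing R] (N : ℕ) :
    (PowerSeries.X : PowerSeries R) ^ (N + 1) ∣ FE_E R - FE_P R N := by
  have h := map_dvd (PowerSeries.map (Int.castRingHom R)) (FE_trunc_int N)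
  rwa [map_pow, PowerSeries.map_X, map_sub, FE_map_P] at h

theorem FE_congr {R : Type*} [CommRing R] (φ : PowerSeries R →+* PowerSeries R)
    (hφ : (PowerSeries.X : PowerSeries R) ∣ φ PowerSeries.X) (N M : ℕ) (hM : N ≤ M + 1) :
    Ideal.Quotient.mk (Ideal.span {(PowerSeries.X : PowerSeries R) ^ N}) (φ (FE_E R)) =
      Ideal.Quotient.mk (Ideal.span {(PowerSeries.X : PowerSeries R) ^ N}) (φ (FE_P R M)) := by
  rw [Ideal.Quotient.eq, Ideal.mem_span_singleton, ← map_sub]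
  have h1 := map_dvd φ (FE_trunc R M)
  rw [map_pow] at h1
  exact ((pow_dvd_pow _ hM).trans (pow_dvd_pow_of_dvd hφ _)).trans h1

/-! ### products over the roots of unity -/

section Roots

variable {κ : Type} [Field κ] {ℓ : ℕ} [NeZero ℓ]

/-- `∏_z (1 - z Y) = 1 - Y^ℓ` -/
theorem FE_prod_one_sub [Fintype (rootsOfUnity ℓ κ)] (hζ : ∃ ζ : κ, IsPrimitiveRoot ζ ℓ)
    (Y : PowerSeries κ) :
    ∏ z : rootsOfUnity ℓ κ, (1 - PowerSeries.C (((z : κˣ) : κ)) * Y) = 1 - Y ^ ℓ := by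
  classical
  obtain ⟨ζ, hζ⟩ := hζ
  have hinj : Function.Injective (PowerSeries.C : κ →+* PowerSeries κ) :=
    (PowerSeries.C : κ →+* PowerSeries κ).injective
  have hζ' : IsPrimitiveRoot (PowerSeries.C ζ : PowerSeries κ) ℓ := hζ.map_of_injective hinj
  have h := hζ'.pow_sub_pow_eq_prod_sub_mul (1 : PowerSeries κ) Y (Nat.pos_of_ne_zero (NeZero.ne ℓ))
  rw [one_pow] at h
  rw [h]
  refine Finset.prod_bij (fun z _ => PowerSeries.C (((z : κˣ) : κ))) ?_ ?_ ?_ ?_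
  · intro z _
    rw [Polynomial.mem_nthRootsFinset (Nat.pos_of_ne_zero (NeZero.ne ℓ)), ← map_pow,
      ← Units.val_pow_eq_pow_val, (mem_rootsOfUnity _ _).mp z.2, Units.val_one, map_one]
  · intro z _ w _ hzw
    exact Subtype.ext (Units.ext (hinj hzw))
  · intro ξ hξ
    rw [Polynomial.mem_nthRootsFinset (Nat.pos_of_ne_zero (NeZero.ne ℓ))] at hξ
    obtain ⟨i, -, hi⟩ := hζ'.eq_pow_of_pow_eq_one hξ
    have h1 : (ζ ^ i) ^ ℓ = 1 := by rw [← pow_mul, mul_comm, pow_mul, hζ.pow_eq_one, one_pow]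
    refine ⟨rootsOfUnity.mkOfPowEq (ζ ^ i) h1, Finset.mem_univ _, ?_⟩
    rw [rootsOfUnity.coe_mkOfPowEq, map_pow, hi]
  · intro z _
    rfl

theorem FE_rescale_factor (z : κ) (m : ℕ) :
    PowerSeries.rescale z (1 - (PowerSeries.X : PowerSeries κ) ^ m) =
      1 - PowerSeries.C (z ^ m) * PowerSeries.X ^ m := by
  rw [map_sub, map_one, map_pow, PowerSeries.rescale_X, mul_pow, map_pow]

/-- `∏_z (1 - z^m X^m) = (1 - X^m)^ℓ` if `ℓ ∣ m` -/
theorem FE_G_dvd [Fintype (rootsOfUnity ℓ κ)] (hζ : ∃ ζ : κ, IsPrimitiveRoot ζ ℓ) (m : ℕ)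
    (hm : ℓ ∣ m) :
    ∏ z : rootsOfUnity ℓ κ, PowerSeries.rescale (((z : κˣ) : κ))
      (1 - (PowerSeries.X : PowerSeries κ) ^ m) = (1 - PowerSeries.X ^ m) ^ ℓ := by
  obtain ⟨ζ, hζ⟩ := hζ
  obtain ⟨k, rfl⟩ := hm
  have h : ∀ z : rootsOfUnity ℓ κ, PowerSeries.rescale (((z : κˣ) : κ))
      (1 - (PowerSeries.X : PowerSeries κ) ^ (ℓ * k)) = 1 - PowerSeries.X ^ (ℓ * k) := by
    intro z
    rw [FE_rescale_factor, pow_mul (((z : κˣ) : κ)), ← Units.val_pow_eq_pow_val,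
      (mem_rootsOfUnity _ _).mp z.2, Units.val_one, one_pow, map_one, one_mul]
  simp only [h, Finset.prod_const, Finset.card_univ]
  rw [← Nat.card_eq_fintype_card, hζ.card_rootsOfUnity]

/-- `∏_z (1 - z^m X^m) = 1 - X^(m ℓ)` if `ℓ ∤ m` -/
theorem FE_G_not_dvd [Fintype (rootsOfUnity ℓ κ)] (hℓ : ℓ.Prime)
    (hζ : ∃ ζ : κ, IsPrimitiveRoot ζ ℓ) (m : ℕ) (hm : ¬ ℓ ∣ m) :
    ∏ z : rootsOfUnity ℓ κ, PowerSeries.rescale (((z : κˣ) : κ))
      (1 - (PowerSeries.X : PowerSeries κ) ^ m) = 1 - PowerSeries.X ^ (m * ℓ) := by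
  have hcard : Nat.card (rootsOfUnity ℓ κ) = ℓ := by
    obtain ⟨ζ, hζ⟩ := hζ
    exact hζ.card_rootsOfUnity
  have hcop : (Nat.card (rootsOfUnity ℓ κ)).Coprime m := by
    rw [hcard]
    exact (Nat.Prime.coprime_iff_not_dvd hℓ).mpr hm
  rw [pow_mul, ← FE_prod_one_sub hζ]
  refine Fintype.prod_equiv (powCoprime hcop) _ _ fun z => ?_
  rw [FE_rescale_factor]
  rfl

end Roots

/-! ### the finite identity -/

section Fin

variable {κ : Type} [Field κ] {ℓ : ℕ} [NeZero ℓ]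

/-- `∏_z (1 - z^m X^m)` -/
def FE_G (κ : Type) [Field κ] (ℓ : ℕ) [NeZero ℓ] [Fintype (rootsOfUnity ℓ κ)] (m : ℕ) :
    PowerSeries κ :=
  ∏ z : rootsOfUnity ℓ κ, PowerSeries.rescale (((z : κˣ) : κ))
    (1 - (PowerSeries.X : PowerSeries κ) ^ m)

theorem FE_step [Fintype (rootsOfUnity ℓ κ)] (hℓ : ℓ.Prime) (hζ : ∃ ζ : κ, IsPrimitiveRoot ζ ℓ)
    (N : ℕ) :
    (∏ j ∈ Finset.range ℓ, FE_G κ ℓ (ℓ * N + j + 1)) *
        (1 - (PowerSeries.X : PowerSeries κ) ^ ((N + 1) * ℓ * ℓ)) =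
      (∏ j ∈ Finset.range ℓ, (1 - (PowerSeries.X : PowerSeries κ) ^ ((ℓ * N + j + 1) * ℓ))) *
        (1 - (PowerSeries.X : PowerSeries κ) ^ ((N + 1) * ℓ)) ^ ℓ := by
  obtain ⟨ℓ', hℓ'⟩ : ∃ ℓ', ℓ = ℓ' + 1 := ⟨ℓ - 1, by have := hℓ.pos; omega⟩
  rw [show Finset.range ℓ = Finset.range (ℓ' + 1) by rw [hℓ'], Finset.prod_range_succ,
    Finset.prod_range_succ]
  have h1 : ∀ j ∈ Finset.range ℓ', FE_G κ ℓ (ℓ * N + j + 1) =
      1 - (PowerSeries.X : PowerSeries κ) ^ ((ℓ * N + j + 1) * ℓ) := by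
    intro j hj
    rw [Finset.mem_range] at hj
    refine FE_G_not_dvd hℓ hζ _ ?_
    rw [add_assoc, Nat.dvd_add_right (dvd_mul_right _ _)]
    intro h
    have := Nat.le_of_dvd (Nat.succ_pos _) h
    omega
  have h2 : ℓ * N + ℓ' + 1 = (N + 1) * ℓ := by
    rw [add_assoc, ← hℓ']; ring
  rw [Finset.prod_congr rfl h1, h2]
  have h3 : FE_G κ ℓ ((N + 1) * ℓ) = (1 - (PowerSeries.X : PowerSeries κ) ^ ((N + 1) * ℓ)) ^ ℓ :=
    FE_G_dvd hζ _ (dvd_mul_left _ _)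
  rw [h3]
  ring

theorem FE_fin_aux [Fintype (rootsOfUnity ℓ κ)] (hℓ : ℓ.Prime)
    (hζ : ∃ ζ : κ, IsPrimitiveRoot ζ ℓ) (N : ℕ) :
    (∏ n ∈ Finset.range (ℓ * N), FE_G κ ℓ (n + 1)) *
        ∏ k ∈ Finset.range N, (1 - (PowerSeries.X : PowerSeries κ) ^ ((k + 1) * ℓ * ℓ)) =
      (∏ n ∈ Finset.range (ℓ * N), (1 - (PowerSeries.X : PowerSeries κ) ^ ((n + 1) * ℓ))) *
        (∏ k ∈ Finset.range N, (1 - (PowerSeries.X : PowerSeries κ) ^ ((k + 1) * ℓ))) ^ ℓ := by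
  induction N with
  | zero => simp
  | succ N ih =>
    rw [Nat.mul_succ, Finset.prod_range_add (fun n => FE_G κ ℓ (n + 1)) (ℓ * N) ℓ,
      Finset.prod_range_add (fun n => 1 - (PowerSeries.X : PowerSeries κ) ^ ((n + 1) * ℓ))
        (ℓ * N) ℓ, Finset.prod_range_succ, Finset.prod_range_succ, mul_pow]
    have h := FE_step (κ := κ) hℓ hζ N
    calc _ = ((∏ n ∈ Finset.range (ℓ * N), FE_G κ ℓ (n + 1)) *
          ∏ k ∈ Finset.range N, (1 - (PowerSeries.X : PowerSeries κ) ^ ((k + 1) * ℓ * ℓ))) *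
          ((∏ j ∈ Finset.range ℓ, FE_G κ ℓ (ℓ * N + j + 1)) *
            (1 - (PowerSeries.X : PowerSeries κ) ^ ((N + 1) * ℓ * ℓ))) := by ring
      _ = _ := by rw [ih, h]; ring

theorem FE_expand_P (N : ℕ) :
    PowerSeries.expand ℓ (NeZero.ne ℓ) (FE_P κ N) =
      ∏ k ∈ Finset.range N, (1 - (PowerSeries.X : PowerSeries κ) ^ ((k + 1) * ℓ)) := by
  rw [FE_P, map_prod]
  refine Finset.prod_congr rfl fun k _ => ?_
  rw [map_sub, map_one, map_pow, PowerSeries.expand_X, ← pow_mul, mul_comm]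

theorem FE_expand_expand_P (N : ℕ) :
    PowerSeries.expand ℓ (NeZero.ne ℓ) (PowerSeries.expand ℓ (NeZero.ne ℓ) (FE_P κ N)) =
      ∏ k ∈ Finset.range N, (1 - (PowerSeries.X : PowerSeries κ) ^ ((k + 1) * ℓ * ℓ)) := by
  rw [FE_expand_P, map_prod]
  refine Finset.prod_congr rfl fun k _ => ?_
  rw [map_sub, map_one, map_pow, PowerSeries.expand_X, ← pow_mul, mul_comm]

theorem FE_rescale_P [Fintype (rootsOfUnity ℓ κ)] (N : ℕ) :
    ∏ z : rootsOfUnity ℓ κ, PowerSeries.rescale (((z : κˣ) : κ)) (FE_P κ N) =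
      ∏ n ∈ Finset.range N, FE_G κ ℓ (n + 1) := by
  simp only [FE_P, map_prod, FE_G]
  exact Finset.prod_comm

/-- the exact identity for the finite Euler products -/
theorem FE_fin [Fintype (rootsOfUnity ℓ κ)] (hℓ : ℓ.Prime)
    (hζ : ∃ ζ : κ, IsPrimitiveRoot ζ ℓ) (N : ℕ) :
    PowerSeries.expand ℓ (NeZero.ne ℓ) (PowerSeries.expand ℓ (NeZero.ne ℓ) (FE_P κ N)) *
        ∏ z : rootsOfUnity ℓ κ, PowerSeries.rescale (((z : κˣ) : κ)) (FE_P κ (ℓ * N)) =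
      PowerSeries.expand ℓ (NeZero.ne ℓ) (FE_P κ (ℓ * N)) *
        PowerSeries.expand ℓ (NeZero.ne ℓ) (FE_P κ N) ^ ℓ := by
  rw [FE_expand_expand_P, FE_rescale_P, FE_expand_P, FE_expand_P, mul_comm]
  exact FE_fin_aux hℓ hζ N

/-- the identity for `η` in `κ[[X]]` -/
theorem FE_main [Fintype (rootsOfUnity ℓ κ)] (hℓ : ℓ.Prime)
    (hζ : ∃ ζ : κ, IsPrimitiveRoot ζ ℓ) :
    PowerSeries.expand ℓ (NeZero.ne ℓ) (PowerSeries.expand ℓ (NeZero.ne ℓ) (FE_E κ)) *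
        ∏ z : rootsOfUnity ℓ κ, PowerSeries.rescale (((z : κˣ) : κ)) (FE_E κ) =
      PowerSeries.expand ℓ (NeZero.ne ℓ) (FE_E κ) ^ (ℓ + 1) := by
  have hex : (PowerSeries.X : PowerSeries κ) ∣
      (PowerSeries.expand (R := κ) ℓ (NeZero.ne ℓ)).toRingHom PowerSeries.X := by
    show (PowerSeries.X : PowerSeries κ) ∣ PowerSeries.expand ℓ (NeZero.ne ℓ) PowerSeries.X
    rw [PowerSeries.expand_X]
    exact dvd_pow_self _ (NeZero.ne ℓ)
  have hex2 : (PowerSeries.X : PowerSeries κ) ∣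
      ((PowerSeries.expand (R := κ) ℓ (NeZero.ne ℓ)).toRingHom.comp
        (PowerSeries.expand (R := κ) ℓ (NeZero.ne ℓ)).toRingHom) PowerSeries.X := by
    show (PowerSeries.X : PowerSeries κ) ∣ PowerSeries.expand ℓ (NeZero.ne ℓ)
      (PowerSeries.expand ℓ (NeZero.ne ℓ) PowerSeries.X)
    rw [PowerSeries.expand_X, map_pow, PowerSeries.expand_X]
    exact dvd_pow (dvd_pow_self _ (NeZero.ne ℓ)) (NeZero.ne ℓ)
  have hre : ∀ z : κ, (PowerSeries.X : PowerSeries κ) ∣ PowerSeries.rescale z PowerSeries.X := by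
    intro z
    rw [PowerSeries.rescale_X]
    exact dvd_mul_left _ _
  have key : ∀ N : ℕ, (PowerSeries.X : PowerSeries κ) ^ N ∣
      PowerSeries.expand ℓ (NeZero.ne ℓ) (PowerSeries.expand ℓ (NeZero.ne ℓ) (FE_E κ)) *
        ∏ z : rootsOfUnity ℓ κ, PowerSeries.rescale (((z : κˣ) : κ)) (FE_E κ) -
      PowerSeries.expand ℓ (NeZero.ne ℓ) (FE_E κ) ^ (ℓ + 1) := by
    intro N
    have hN : N ≤ ℓ * N + 1 := by
      have := Nat.le_mul_of_pos_left N hℓ.pos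
      omega
    rw [← Ideal.mem_span_singleton, ← Ideal.Quotient.eq, map_mul, map_prod, map_pow]
    have e1 := FE_congr _ hex2 N N (Nat.le_succ N)
    have e2 := fun z : rootsOfUnity ℓ κ => FE_congr _ (hre ((z : κˣ) : κ)) N (ℓ * N) hN
    have e3 := FE_congr _ hex N (ℓ * N) hN
    have e4 := FE_congr _ hex N N (Nat.le_succ N)
    simp only [RingHom.comp_apply, AlgHom.toRingHom_eq_coe, RingHom.coe_coe] at e1 e3 e4
    rw [e1, Finset.prod_congr rfl (fun z _ => e2 z), pow_succ']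
    nth_rewrite 1 [e3]
    rw [e4, ← map_prod, ← map_mul, FE_fin hℓ hζ N, map_mul, map_pow]
  rw [← sub_eq_zero]
  ext n
  rw [map_zero]
  exact (PowerSeries.X_pow_dvd_iff.mp (key (n + 1))) n (Nat.lt_succ_self n)

end Fin

/-! ### transfer to Laurent series -/

section FD

variable {κ : Type} [Field κ] {ℓ : ℕ} [NeZero ℓ]

theorem FE_twist_ofPowerSeries (z : κˣ) (f : PowerSeries κ) :
    twist z (HahnSeries.ofPowerSeries ℤ κ f) =
      HahnSeries.ofPowerSeries ℤ κ (PowerSeries.rescale (z : κ) f) := by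
  ext n
  rw [twist_coeff]
  rcases lt_or_ge n 0 with hn | hn
  · rw [ofPowerSeries_coeff_of_neg _ hn, ofPowerSeries_coeff_of_neg _ hn, mul_zero]
  · lift n to ℕ using hn
    rw [HahnSeries.ofPowerSeries_apply_coeff, HahnSeries.ofPowerSeries_apply_coeff,
      PowerSeries.coeff_rescale, zpow_natCast, Units.val_pow_eq_pow_val]

theorem FE_LL_etaProd : LL κ etaProd = HahnSeries.ofPowerSeries ℤ κ (FE_E κ) := rfl

theorem FE_qExpand_LL_etaProd :
    qExpand κ ℓ (LL κ etaProd) =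
      HahnSeries.ofPowerSeries ℤ κ (PowerSeries.expand ℓ (NeZero.ne ℓ) (FE_E κ)) := by
  rw [HP_qExpand_LL, LL_apply, PowerSeries.map_expand]
  rfl

theorem FE_qExpand_qExpand_LL_etaProd :
    qExpand κ ℓ (qExpand κ ℓ (LL κ etaProd)) =
      HahnSeries.ofPowerSeries ℤ κ (PowerSeries.expand ℓ (NeZero.ne ℓ)
        (PowerSeries.expand ℓ (NeZero.ne ℓ) (FE_E κ))) := by
  rw [HP_qExpand_LL, HP_qExpand_LL, LL_apply, PowerSeries.map_expand, PowerSeries.map_expand]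
  rfl

/-- (FD1) `η(q^ℓ) ∏_z η(z q^{1/ℓ}) = η(q)^(ℓ+1)` for `η = ∏ (1 - q^n)` -/
theorem heckeMul_etaProd (hℓ : ℓ.Prime) (hζ : ∃ ζ : κ, IsPrimitiveRoot ζ ℓ) :
    heckeMul ℓ (LL κ etaProd) = LL κ etaProd ^ (ℓ + 1) := by
  apply qExpand_injective (R := κ) ℓ
  letI : Fintype (rootsOfUnity ℓ κ) := Fintype.ofFinite _
  have h : prodTwist ℓ (LL κ etaProd) = HahnSeries.ofPowerSeries ℤ κ
      (∏ z : rootsOfUnity ℓ κ, PowerSeries.rescale (((z : κˣ) : κ)) (FE_E κ)) := by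
    rw [map_prod]
    unfold prodTwist
    exact Finset.prod_congr rfl fun z _ => FE_twist_ofPowerSeries _ _
  rw [heckeMul, map_mul, qExpand_normL ℓ hζ, map_pow, FE_qExpand_qExpand_LL_etaProd,
    FE_qExpand_LL_etaProd, h, ← map_mul, ← map_pow, FE_main hℓ hζ]

end FD

end

end Fermat.Agent.S40Lib
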