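import Fermat.Agent.S40.Cst.Defs

/-!
# S40, block (CST), batch (FH): `heckeMul ℓ` commutes with reduction (`ℓ ≠ p`)
-/

set_option autoImplicit false
set_option synthInstance.maxHeartbeats 400000
set_option linter.unusedSectionVars false
set_option linter.unusedVariables false
set_option linter.style.haveILetI false

open AlgebraicCurve ModularCurve Polynomial

namespace Fermat.Agent.S40Lib

open Fermat.Agent.S18Lib Fermat.Agent.S24Lib Fermat.Agent.S28Lib Fermat.Agent.ESLib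
  Fermat.Agent.S34Lib Fermat.Agent.FFLib Fermat.Agent.S36Lib Fermat.Agent.S37Lib
  Fermat.Agent.S28Lib.RelationAux

noncomputable section

section FH

variable (A : ValuationSubring Qb) {p ℓ : ℕ} [NeZero ℓ]

/-- `rootA` as a monoid homomorphism to the roots of unity of the residue field -/
def FH_redRoot (ℓ : ℕ) [NeZero ℓ] : rootsOfUnity ℓ Qb →* rootsOfUnity ℓ (kk A) where
  toFun z := ⟨Units.map (IsLocalRing.residue A : A →* kk A) (rootA A ℓ z), by
    rw [mem_rootsOfUnity, ← map_pow]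
    have h1 : rootA A ℓ z ^ ℓ = 1 := by
      ext
      have := z.2
      rw [mem_rootsOfUnity] at this
      have h2 := congrArg (fun u : Qbˣ => (u : Qb)) this
      simpa [rootA] using h2
    rw [h1, map_one]⟩
  map_one' := by
    apply Subtype.ext
    have : rootA A ℓ 1 = 1 := by ext; rfl
    show Units.map (IsLocalRing.residue A : A →* kk A) (rootA A ℓ 1) = 1
    rw [this, map_one]
  map_mul' x y := by
    apply Subtype.ext
    have : rootA A ℓ (x * y) = rootA A ℓ x * rootA A ℓ y := by ext; rfl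
    show Units.map (IsLocalRing.residue A : A →* kk A) (rootA A ℓ (x * y)) = _
    rw [this, map_mul]
    rfl

theorem FH_redRoot_injective (hp : p.Prime) (hA : A.LiesOverPrime p) (hℓ : ℓ.Prime) (hℓp : ℓ ≠ p) :
    Function.Injective (FH_redRoot A ℓ) := by
  rw [injective_iff_map_eq_one]
  intro z hz
  by_contra hz1
  haveI := charP_kk hp hA
  have hzℓ : ((z : Qbˣ) : Qb) ^ ℓ = 1 := by
    have := z.2
    rw [mem_rootsOfUnity] at this
    rw [← Units.val_pow_eq_pow_val, this, Units.val_one]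
  have hzne : ((z : Qbˣ) : Qb) ≠ 1 := by
    intro h
    apply hz1
    apply Subtype.ext
    apply Units.ext
    exact h
  have hord : orderOf ((z : Qbˣ) : Qb) = ℓ := by
    haveI := Fact.mk hℓ
    exact orderOf_eq_prime hzℓ hzne
  have hprim : IsPrimitiveRoot ((z : Qbˣ) : Qb) ℓ := by
    have := IsPrimitiveRoot.orderOf ((z : Qbˣ) : Qb)
    rwa [hord] at this
  have hsum := hprim.geom_sum_eq_zero hℓ.one_lt
  have hsumA : ∑ i ∈ Finset.range ℓ, ((rootA A ℓ z : Aˣ) : A) ^ i = 0 := by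
    apply Subtype.ext
    refine Eq.trans ?_ hsum
    simp [rootA]
  have hres : IsLocalRing.residue A ((rootA A ℓ z : Aˣ) : A) = 1 := by
    have := congrArg (fun w : rootsOfUnity ℓ (kk A) => ((w : (kk A)ˣ) : kk A)) hz
    exact this
  have h2 := congrArg (IsLocalRing.residue A) hsumA
  rw [map_sum, map_zero] at h2
  simp only [map_pow, hres, one_pow, Finset.sum_const, Finset.card_range, nsmul_eq_mul,
    mul_one] at h2
  have h3 := (CharP.cast_eq_zero_iff (kk A) p ℓ).1 h2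
  exact hℓp ((Nat.prime_dvd_prime_iff_eq hp hℓ).1 h3).symm

/-- (FH1) reduction is a bijection on `ℓ`-th roots of unity -/
theorem FH_equiv_roots (hp : p.Prime) (hA : A.LiesOverPrime p) (hℓ : ℓ.Prime) (hℓp : ℓ ≠ p) :
    ∃ e : rootsOfUnity ℓ Qb ≃ rootsOfUnity ℓ (kk A), ∀ z : rootsOfUnity ℓ Qb,
      ((e z : rootsOfUnity ℓ (kk A)) : (kk A)ˣ) =
        Units.map (IsLocalRing.residue A : A →* kk A) (rootA A ℓ z) := by
  have hinj := FH_redRoot_injective A hp hA hℓ hℓp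
  obtain ⟨ζ, hζ⟩ := exists_primitiveRoot_Qb ℓ
  have hcard : Nat.card (rootsOfUnity ℓ Qb) = ℓ := hζ.card_rootsOfUnity
  have hle : Nat.card (rootsOfUnity ℓ (kk A)) ≤ Nat.card (rootsOfUnity ℓ Qb) := by
    rw [hcard]
    exact card_rootsOfUnity (kk A) ℓ
  have hbij : Function.Bijective (FH_redRoot A ℓ) :=
    hinj.bijective_of_nat_card_le hle
  exact ⟨Equiv.ofBijective _ hbij, fun z => rfl⟩

theorem FH_exists_prim (hp : p.Prime) (hA : A.LiesOverPrime p) (hℓ : ℓ.Prime) (hℓp : ℓ ≠ p) :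
    ∃ ζ : kk A, IsPrimitiveRoot ζ ℓ := by
  haveI := isAlgClosed_kk A
  haveI := charP_kk hp hA
  haveI : NeZero ((ℓ : ℕ) : kk A) := ⟨fun h =>
    hℓp ((Nat.prime_dvd_prime_iff_eq hp hℓ).1 ((CharP.cast_eq_zero_iff (kk A) p ℓ).1 h)).symm⟩
  exact HasEnoughRootsOfUnity.exists_primitiveRoot (kk A) ℓ

/-- (FH2) -/
theorem exists_normL_int' (hp : p.Prime) (hA : A.LiesOverPrime p) (hℓ : ℓ.Prime) (hℓp : ℓ ≠ p)
    (y : LaurentSeries A) :
    ∃ Y : LaurentSeries A, cE A Y = normL ℓ (cE A y) ∧ cR A Y = normL ℓ (cR A y) := by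
  letI : Fintype (rootsOfUnity ℓ Qb) := Fintype.ofFinite _
  letI : Fintype (rootsOfUnity ℓ (kk A)) := Fintype.ofFinite _
  obtain ⟨e, he⟩ := FH_equiv_roots A hp hA hℓ hℓp
  refine ⟨contract ℓ (∏ z : rootsOfUnity ℓ Qb, twist (rootA A ℓ z) y), ?_, ?_⟩
  · rw [cE_def, cE_def, coeffMap_contract, map_prod, normL_def, prodTwist]
    congr 1
    refine Finset.prod_congr rfl fun z _ => ?_
    rw [coeffMap_twist]
    congr 1
  · rw [cR_def, cR_def, coeffMap_contract, map_prod, normL_def, prodTwist]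
    congr 1
    refine Fintype.prod_equiv e _ _ fun z => ?_
    rw [coeffMap_twist, he z]

/-- (FH3) -/
theorem exists_heckeMul_int (hp : p.Prime) (hA : A.LiesOverPrime p) (hℓ : ℓ.Prime) (hℓp : ℓ ≠ p)
    (y : LaurentSeries A) :
    ∃ Y : LaurentSeries A, cE A Y = heckeMul ℓ (cE A y) ∧ cR A Y = heckeMul ℓ (cR A y) := by
  obtain ⟨Y, h1, h2⟩ := exists_normL_int' A hp hA hℓ hℓp y
  refine ⟨qExpand A ℓ y * Y, ?_, ?_⟩
  · rw [map_mul, h1, heckeMul, cE_def, cE_def, coeffMap_qExpand'']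
  · rw [map_mul, h2, heckeMul, cR_def, cR_def, coeffMap_qExpand'']

/-- (FH4) `heckeMul ℓ f ≠ 0` for `f ≠ 0` -/
theorem heckeMul_ne_zero {K : Type*} [Field K] (hζ : ∃ ζ : K, IsPrimitiveRoot ζ ℓ)
    {f : LaurentSeries K} (hf : f ≠ 0) : heckeMul ℓ f ≠ 0 := by
  unfold heckeMul
  refine mul_ne_zero ?_ ?_
  · intro h
    apply hf
    apply qExpand_injective (R := K) ℓ
    rw [h, map_zero]
  · intro h
    have h1 := qExpand_normL ℓ hζ f
    rw [h, map_zero] at h1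
    unfold prodTwist at h1
    letI : Fintype (rootsOfUnity ℓ K) := Fintype.ofFinite _
    have h2 := Finset.prod_eq_zero_iff.1 h1.symm
    obtain ⟨z, _, hz⟩ := h2
    apply hf
    have h3 := twist_support (z : Kˣ) f
    rw [hz] at h3
    rw [← HahnSeries.support_eq_empty_iff, ← h3]
    simp

/-- (FH5) -/
theorem heckeMul_gRed (hp : p.Prime) (hA : A.LiesOverPrime p) (hℓ : ℓ.Prime) (hℓp : ℓ ≠ p)
    (y : LaurentSeries Qb) (hy : y ∈ gRing A) :
    ∃ h : heckeMul ℓ y ∈ gRing A, gRed A ⟨_, h⟩ = heckeMul ℓ (gRed A ⟨y, hy⟩) := by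
  have hζk := FH_exists_prim A hp hA hℓ hℓp
  have hζ := exists_primitiveRoot_Qb ℓ
  obtain ⟨a, s, hs, has⟩ := hy
  obtain ⟨a', ha1, ha2⟩ := exists_heckeMul_int A hp hA hℓ hℓp a
  obtain ⟨s', hs1, hs2⟩ := exists_heckeMul_int A hp hA hℓ hℓp s
  have hs' : cR A s' ≠ 0 := by rw [hs2]; exact heckeMul_ne_zero hζk hs
  have hrel : heckeMul ℓ y * cE A s' = cE A a' := by
    rw [hs1, ha1, ← heckeMul_mul ℓ hζ, has]
  have hmem : heckeMul ℓ y ∈ gRing A := ⟨a', s', hs', hrel⟩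
  refine ⟨hmem, ?_⟩
  have e1 := gRed_eq A ⟨_, hmem⟩ hs' hrel
  have e2 := gRed_mul_eq A ⟨y, ⟨a, s, hs, has⟩⟩ has
  rw [e1, div_eq_iff hs', ha2, hs2, ← heckeMul_mul ℓ hζk, e2]

/-- (FH6) reduction of a Hecke relation -/
theorem hecke_rel_red (hp : p.Prime) (hA : A.LiesOverPrime p) (hℓ : ℓ.Prime) (hℓp : ℓ ≠ p)
    (y g : LaurentSeries Qb) (c : Qb) (a m : ℕ) (hy : IsGU A y) (hg : IsGU A g)
    (hrel : heckeMul ℓ y = HahnSeries.C c * y ^ a * g ^ m) :
    ∃ c' : kk A, heckeMul ℓ (gRed A ⟨y, hy.1⟩) =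
      HahnSeries.C c' * gRed A ⟨y, hy.1⟩ ^ a * gRed A ⟨g, hg.1⟩ ^ m := by
  obtain ⟨h1, h2⟩ := heckeMul_gRed A hp hA hℓ hℓp y hy.1
  have hya : IsGU A (y ^ a) := by have := hy.zpow (a : ℤ); rwa [zpow_natCast] at this
  have hgm : IsGU A (g ^ m) := by have := hg.zpow (m : ℤ); rwa [zpow_natCast] at this
  have hu := (hya.mul hgm).inv
  have hne := (hya.mul hgm).ne_zero
  have hC : (HahnSeries.C c : LaurentSeries Qb) = heckeMul ℓ y * (y ^ a * g ^ m)⁻¹ := by
    rw [hrel, mul_assoc (HahnSeries.C c), mul_assoc, mul_inv_cancel₀ hne, mul_one]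
  have hCm : (HahnSeries.C c : LaurentSeries Qb) ∈ gRing A := by
    rw [hC]; exact (gRing A).mul_mem h1 hu.1
  have hc : c ∈ A := mem_of_C_mem_gRing hCm
  refine ⟨resA A ⟨c, hc⟩, ?_⟩
  rw [← h2, ← gRed_C hc, ← map_pow, ← map_pow, ← map_mul, ← map_mul]
  congr 1
  exact Subtype.ext hrel

end FH

end

end Fermat.Agent.S40Lib
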