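import Fermat.Agent.S40.Cst.Defs
import Fermat.Agent.S40.Cst.NormRed
import Fermat.Agent.S40.Cst.Degree
import Fermat.Agent.S40.Cst.FormalRed
import Fermat.Agent.S40.Cst.FENormGen

/-!
# S40, block (CST), batch (NB): `N_α (β f) = heckeMul ℓ f` in characteristic `p`, and the Hecke
correspondence on the divisors of `FT A M`
-/

set_option autoImplicit false
set_option synthInstance.maxHeartbeats 400000
set_option linter.unusedSectionVars false
set_option linter.unusedVariables false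
set_option linter.style.haveILetI false

open AlgebraicCurve ModularCurve Polynomial

namespace Fermat.Agent.S40Lib

open Fermat.Agent.S18Lib Fermat.Agent.S24Lib Fermat.Agent.S28Lib Fermat.Agent.ESLib
  Fermat.Agent.S34Lib Fermat.Agent.FFLib Fermat.Agent.S36Lib Fermat.Agent.S37Lib
  Fermat.Agent.S28Lib.RelationAux

noncomputable section

variable {M p ℓ : ℕ} [NeZero M] [NeZero ℓ] [hpF : Fact p.Prime] (hpM : ¬ p ∣ M)
variable (A : ValuationSubring Qb) (hA : A.LiesOverPrime p)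

section NB

lemma NB_mem (hpMℓ : ¬ p ∣ M * ℓ) (x : FB M) :
    heckeAlphaBar Qb M ℓ x ∈ OC (M * ℓ) hpMℓ A hA ↔ x ∈ OC M hpM A hA := by
  rw [mem_OC_iff, mem_OC_iff, coe_heckeAlphaBar]

lemma NB_comp (hpMℓ : ¬ p ∣ M * ℓ) (x : OC M hpM A hA)
    (h : heckeAlphaBar Qb M ℓ (x : FB M) ∈ OC (M * ℓ) hpMℓ A hA) :
    redC (M * ℓ) hpMℓ A hA ⟨_, h⟩ = aT A M ℓ (redC M hpM A hA x) := by
  apply Subtype.ext
  rw [coe_aT, coe_redC, coe_redC]
  have e : OCtoG (M * ℓ) hpMℓ A hA ⟨_, h⟩ = OCtoG M hpM A hA x := by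
    apply Subtype.ext
    rw [coe_OCtoG, coe_OCtoG, coe_heckeAlphaBar]
  rw [e]

lemma NB_beta_mem (hpMℓ : ¬ p ∣ M * ℓ) (x : OC M hpM A hA) :
    heckeBetaBar Qb M ℓ (x : FB M) ∈ OC (M * ℓ) hpMℓ A hA := by
  rw [mem_OC_iff, coe_heckeBetaBar]
  exact qExpand_mem_gRing A ℓ x.2

lemma NB_beta_red (hpMℓ : ¬ p ∣ M * ℓ) (x : OC M hpM A hA) :
    redC (M * ℓ) hpMℓ A hA ⟨_, NB_beta_mem hpM A hA hpMℓ x⟩ = bT A M ℓ (redC M hpM A hA x) := by
  apply Subtype.ext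
  rw [coe_bT, coe_redC, coe_redC]
  have h := gRed_qExpand A ℓ x.2
  have e1 : OCtoG (M * ℓ) hpMℓ A hA ⟨_, NB_beta_mem hpM A hA hpMℓ x⟩ =
      ⟨qExpand Qb ℓ ((x : FB M) : LaurentSeries Qb), qExpand_mem_gRing A ℓ x.2⟩ := by
    apply Subtype.ext
    rw [coe_OCtoG, coe_heckeBetaBar]
  have e2 : OCtoG M hpM A hA x = ⟨((x : FB M) : LaurentSeries Qb), x.2⟩ := by
    apply Subtype.ext
    rw [coe_OCtoG]
  rw [e1, e2]
  exact h

include hpM hA in
/-- (NB1) `N_α(β f) = heckeMul ℓ f` in characteristic `p`: `NR_norm` + `S37Lib.norm_heckeBeta` +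
`heckeMul_gRed` -/
theorem norm_bT (hℓ : ℓ.Prime) (hℓp : ℓ ≠ p) (hℓM : ¬ ℓ ∣ M) (f : FT A M) (hf : f ≠ 0) :
    letI := algebraAlong (aT A M ℓ)
    ((Algebra.norm (FT A M) (bT A M ℓ f) : FT A M) : LaurentSeries (kk A)) =
      heckeMul ℓ (f : LaurentSeries (kk A)) := by
  letI i1 := algebraAlong (heckeAlphaBar Qb M ℓ)
  letI i2 := algebraAlong (aT A M ℓ)
  have hfr := finrank_alpha M ℓ hℓ hℓM
  haveI : FiniteDimensional (FB M) (FB (M * ℓ)) :=
    Module.finite_of_finrank_pos (by rw [hfr]; omega)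
  have hpMℓ := DG_not_dvd hpM hℓ hℓp
  obtain ⟨ft, rfl⟩ := rd_surjective M hpM A hA f
  have hft0 : (ft : FB M) ≠ 0 := by
    intro h0
    apply hf
    have : ft = 0 := Subtype.ext h0
    rw [this, map_zero]
  have h := NR_norm (OC M hpM A hA) (OC (M * ℓ) hpMℓ A hA) (redC M hpM A hA)
    (redC (M * ℓ) hpMℓ A hA) (isUnit_of_redC_ne_zero M hpM A hA) (rd_surjective (M * ℓ) hpMℓ A hA)
    (fun x => NB_mem hpM A hA hpMℓ x)
    (fun x hx => NB_comp hpM A hA hpMℓ x hx)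
    (by rw [hfr, finrank_aT hpM A hA hℓ hℓp hℓM]) ⟨_, NB_beta_mem hpM A hA hpMℓ ft⟩
  obtain ⟨hN, hNr⟩ := h
  rw [NB_beta_red hpM A hA hpMℓ ft] at hNr
  rw [← hNr]
  have h2 := norm_heckeBeta M ℓ hℓ hℓM (ft : FB M) hft0
  obtain ⟨h3, h4⟩ := heckeMul_gRed A hpF.out hA hℓ hℓp ((ft : FB M) : LaurentSeries Qb) ft.2
  rw [coe_redC, coe_redC]
  have e1 : OCtoG M hpM A hA ⟨_, hN⟩ = ⟨_, h3⟩ := by
    apply Subtype.ext
    rw [coe_OCtoG]
    exact h2
  have e2 : OCtoG M hpM A hA ft = ⟨((ft : FB M) : LaurentSeries Qb), ft.2⟩ := by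
    apply Subtype.ext
    rw [coe_OCtoG]
  rw [e1, e2]
  exact h4

include hpM hA in
/-- (NB2) as `S37Lib.exists_heckeDiv` -/
theorem exists_heckeDivT (hℓ : ℓ.Prime) (hℓp : ℓ ≠ p) (hℓM : ¬ ℓ ∣ M) :
    ∃ T : Divisor (kk A) (FT A M) →+ Divisor (kk A) (FT A M), IsHeckeDivT A M ℓ T := by
  haveI := isAlgClosed_kk A
  have hF := isFF_FT A M
  have hF' := isFF_FT A (M * ℓ)
  haveI := FFLib.hasPrincipalDivisors hF'
  have hα : (aT A M ℓ).toRingHom.IsIntegral := fe_isIntegral_along hF hF' _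
  have hβ : (bT A M ℓ).toRingHom.IsIntegral := fe_isIntegral_along hF hF' _
  have hFI := fe_fundamental_along hF hF' (bT A M ℓ) hβ
  have hfin := fe_finite_along hF hF' (aT A M ℓ)
  have hN := fe_norm_along_gen hF hF' (aT A M ℓ) hfin
  have habs := HeckeDiv_abs hF (bT A M ℓ) (aT A M ℓ) hβ hα hFI hfin hN
  refine ⟨Divisor.correspondence (bT A M ℓ) (aT A M ℓ) hβ hα, ?_, ?_, ?_⟩
  · intro D hD
    exact fe_pushforwardAlong_nonneg _ hα (fe_pullbackAlong_nonneg _ hβ hD)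
  · exact ⟨finrankAlong (kk A) (bT A M ℓ), finrank_bT_le hpM A hA hℓ hℓp hℓM,
      fun D => Divisor.degree_correspondence _ _ hβ hα hFI D⟩
  · intro f g hf hg D hD P
    rw [habs.2 f hf D hD P]
    congr 1
    apply Subtype.ext
    rw [hg]
    exact norm_bT hpM A hA hℓ hℓp hℓM f hf

end NB

end

end Fermat.Agent.S40Lib
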