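import Fermat.Agent.S40.Cst.Defs
import Fermat.Agent.S40.Cst.FormalDelta

/-!
# S40, block (CST), batch (PZ): the positive part of an eigendivisor
-/

set_option autoImplicit false
set_option synthInstance.maxHeartbeats 400000
set_option linter.unusedSectionVars false
set_option linter.unusedVariables false

open AlgebraicCurve ModularCurve Polynomial

namespace Fermat.Agent.S40Lib

open Fermat.Agent.S18Lib Fermat.Agent.S24Lib Fermat.Agent.S28Lib Fermat.Agent.ESLib
  Fermat.Agent.S34Lib Fermat.Agent.FFLib Fermat.Agent.S36Lib Fermat.Agent.S37Lib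
  Fermat.Agent.S28Lib.RelationAux

noncomputable section

variable {M p ℓ : ℕ} [NeZero M] [NeZero ℓ] [hpF : Fact p.Prime] (hpM : ¬ p ∣ M)
variable (A : ValuationSubring Qb) (hA : A.LiesOverPrime p)

section PZ

/-- (PZ1) ABSTRACT: a positive additive map multiplying degrees by `d ≤ n`, with `T D = n D`,
satisfies `T D⁺ = n D⁺` -/
theorem posPart_eigen {k κ : Type*} [Field k] [IsAlgClosed k] [Field κ] [Algebra k κ]
    (hκ : IsFF k κ) (T : Divisor k κ →+ Divisor k κ) (hpos : ∀ D, 0 ≤ D → 0 ≤ T D) (d n : ℕ)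
    (hd : d ≤ n) (hdeg : ∀ D, Divisor.degree (T D) = (d : ℤ) * Divisor.degree D)
    (D Z : Divisor k κ) (hZ : ∀ P, Z P = max (D P) 0) (hT : T D = n • D) : T Z = n • Z := by
  have hZ0 : 0 ≤ Z := by
    intro P
    rw [hZ]
    exact le_max_right _ _
  have hZ'0 : 0 ≤ Z - D := by
    intro P
    rw [Finsupp.sub_apply, hZ]
    exact sub_nonneg.mpr (le_max_left _ _)
  have hTZ := hpos Z hZ0
  have hTZ' := hpos (Z - D) hZ'0
  have hW : T Z - n • Z = T (Z - D) - n • (Z - D) := by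
    rw [map_sub, hT, smul_sub]
    abel
  have hW0 : ∀ P, 0 ≤ (T Z - n • Z) P := by
    intro P
    rcases le_total (D P) 0 with h | h
    · have h1 : Z P = 0 := by rw [hZ, max_eq_right h]
      rw [Finsupp.sub_apply, Finsupp.smul_apply, h1, smul_zero, sub_zero]
      exact hTZ P
    · have h1 : (Z - D) P = 0 := by rw [Finsupp.sub_apply, hZ, max_eq_left h, sub_self]
      rw [hW, Finsupp.sub_apply, Finsupp.smul_apply, h1, smul_zero, sub_zero]
      exact hTZ' P
  have hdegZ := dg_degree_nonneg hκ hZ0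
  have hdegW : Divisor.degree (T Z - n • Z) = 0 := by
    apply le_antisymm
    · rw [map_sub, hdeg, map_nsmul, nsmul_eq_mul, ← sub_mul]
      apply mul_nonpos_of_nonpos_of_nonneg _ hdegZ
      have : (d : ℤ) ≤ n := by exact_mod_cast hd
      linarith
    · exact dg_degree_nonneg hκ hW0
  have h0 := ma_eq_zero_of_degree hκ _ hW0 hdegW
  have h1 : T Z - n • Z = 0 := Finsupp.ext h0
  exact sub_eq_zero.mp h1

include hA in
/-- (PZ2) -/
theorem heckeDivT_ZZ3 (hℓ : ℓ.Prime) (hℓp : ℓ ≠ p)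
    {T : Divisor (kk A) (FT A M) →+ Divisor (kk A) (FT A M)} (hT : IsHeckeDivT A M ℓ T)
    (H : FT A M) (hH : (H : LaurentSeries (kk A)) = (phiL (kk A) p)⁻¹) :
    T (ZZ3 A H) = (ℓ + 1) • ZZ3 A H := by
  have := isAlgClosed_kk A
  have hchar : CharP (kk A) p := Fermat.Agent.ESLib.charP_kk hpF.out hA
  have hne : NeZero ((ℓ : ℕ) : kk A) := by
    refine ⟨fun h0 => ?_⟩
    have h1 := (CharP.cast_eq_zero_iff (kk A) p ℓ).mp h0
    exact hℓp ((Nat.prime_dvd_prime_iff_eq hpF.out hℓ).mp h1).symm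
  have hζ : ∃ ζ : kk A, IsPrimitiveRoot ζ ℓ :=
    HasEnoughRootsOfUnity.exists_primitiveRoot (kk A) ℓ
  obtain ⟨c, hc, hrel⟩ := heckeMul_phiL_inv (κ := kk A) (p := p) hℓ hζ
  obtain ⟨d, hd, hdeg⟩ := hT.deg
  have hH0 : H ≠ 0 := by
    intro h0
    rw [h0] at hH
    exact inv_ne_zero (phiL_ne_zero (kk A) p) hH.symm
  -- the function `g = c H ^ (ℓ + 1)`
  let g : FT A M := algebraMap (kk A) (FT A M) c * H ^ (ℓ + 1)
  have hg : (g : LaurentSeries (kk A)) = heckeMul ℓ (H : LaurentSeries (kk A)) := by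
    rw [hH, hrel, ← hH]
    have h2 : algebraMap (kk A) (LaurentSeries (kk A)) c = HahnSeries.C c := by
      rw [HahnSeries.algebraMap_apply', PowerSeries.algebraMap_apply, HahnSeries.ofPowerSeries_C]
      rfl
    rw [← h2]
    rfl
  have hD : ∀ P, divOf (kk A) H P = P.ord H := fun P => divOf_apply (isFF_FT A M) H P
  have h1 := hT.prin H g hH0 hg (divOf (kk A) H) hD
  have hTD : T (divOf (kk A) H) = (ℓ + 1) • divOf (kk A) H := by
    apply Finsupp.ext
    intro P
    rw [h1 P, Finsupp.smul_apply, hD]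
    have hc' : algebraMap (kk A) (FT A M) c ≠ 0 := by
      rw [Ne, map_eq_zero]; exact hc
    show P.ord (algebraMap (kk A) (FT A M) c * H ^ (ℓ + 1)) = _
    rw [P.ord_mul hc' (pow_ne_zero _ hH0), ord_algebraMap, zero_add, pl_ord_pow, nsmul_eq_mul]
  refine posPart_eigen (isFF_FT A M) T hT.pos d (ℓ + 1) hd hdeg (divOf (kk A) H) (ZZ3 A H) ?_ hTD
  intro P
  rw [ZZ3_apply, hD]

end PZ

end

end Fermat.Agent.S40Lib
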