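import Fermat.Agent.S40.Cst.Defs
import Fermat.Agent.S40.Cst.FormalRed
import Fermat.Agent.S40.Cst.NormBT
import Fermat.Agent.S40.Cst.PosPart

/-!
# S40, block (CST), (FIN): the residues of `dlog h̄` vanish
-/

set_option autoImplicit false
set_option synthInstance.maxHeartbeats 400000
set_option linter.unusedSectionVars false

open AlgebraicCurve ModularCurve Polynomial

namespace Fermat.Agent.S40Lib

open Fermat.Agent.S18Lib Fermat.Agent.S24Lib Fermat.Agent.S28Lib Fermat.Agent.ESLib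
  Fermat.Agent.S34Lib Fermat.Agent.FFLib Fermat.Agent.S36Lib Fermat.Agent.S37Lib

noncomputable section

/-- (FIN1) ABSTRACT arithmetic -/
theorem cst_abs {k κ : Type*} [Field k] [Field κ] [Algebra k κ]
    (T : Divisor k κ →+ Divisor k κ) (Z Dh Dg : Divisor k κ) (n a p : ℕ) (hp : p.Prime)
    (hZ : T Z = n • Z) (hrel : T Dh = a • Dh + p • Dg) (μ : ℤ)
    (hord : ∀ P, (12 * p : ℤ) ∣ μ * Z P - 12 * Dh P) (ha : ¬ (p : ℤ) ∣ (a : ℤ) - n) :
    ∀ P, (p : ℤ) ∣ Dh P := by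
  intro P
  have hp0 : (12 * p : ℤ) ≠ 0 := by
    have := hp.pos
    positivity
  set E : Divisor k κ := (μ • Z - (12 : ℤ) • Dh).mapRange (fun x => x / (12 * p : ℤ)) (by simp)
    with hE
  have hE1 : (12 * p : ℤ) • E = μ • Z - (12 : ℤ) • Dh := by
    ext Q
    rw [Finsupp.smul_apply, hE, Finsupp.mapRange_apply, Finsupp.sub_apply, Finsupp.smul_apply,
      Finsupp.smul_apply, smul_eq_mul, smul_eq_mul, smul_eq_mul]
    exact Int.mul_ediv_cancel' (hord Q)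
  have h1 := congrArg T hE1
  rw [map_zsmul, map_sub, map_zsmul, map_zsmul, hZ, hrel] at h1
  have h2 := DFunLike.congr_fun h1 P
  have h3 := DFunLike.congr_fun hE1 P
  simp only [Finsupp.smul_apply, Finsupp.sub_apply, Finsupp.add_apply, smul_eq_mul,
    nsmul_eq_mul] at h2 h3
  -- `12 p ∣ (n - a) μ Z(P)`
  have h4 : (12 * p : ℤ) ∣ ((n : ℤ) - a) * (μ * Z P) :=
    ⟨T E P - a * E P + Dg P, by linear_combination (-1 : ℤ) * h2 + (a : ℤ) * h3⟩
  obtain ⟨m, hm⟩ : (12 : ℤ) ∣ μ * Z P := by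
    have h5 : (12 : ℤ) ∣ μ * Z P - 12 * Dh P := (Dvd.intro _ rfl).trans (hord P)
    exact (Int.dvd_iff_dvd_of_dvd_sub h5).2 (Dvd.intro _ rfl)
  rw [hm] at h4
  have h6 : (p : ℤ) ∣ ((n : ℤ) - a) * m := by
    obtain ⟨t, ht⟩ := h4
    exact ⟨t, by linarith⟩
  have hpp : Prime (p : ℤ) := Nat.prime_iff_prime_int.1 hp
  have h7 : (p : ℤ) ∣ m := by
    rcases hpp.dvd_or_dvd h6 with h | h
    · exact absurd (by rw [← neg_sub]; exact (dvd_neg).2 h) ha
    · exact h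
  obtain ⟨s, hs⟩ := h7
  obtain ⟨t, ht⟩ := hord P
  rw [hm, hs] at ht
  exact ⟨s - t, by linarith⟩

variable {M p ℓ : ℕ} [NeZero M] [NeZero ℓ] [hpF : Fact p.Prime] (hpM : ¬ p ∣ M)
variable (A : ValuationSubring Qb) (hA : A.LiesOverPrime p)

include hA in
theorem CST_exists_prim (hℓp : ℓ ≠ p) (hℓ : ℓ.Prime) : ∃ ζ : kk A, IsPrimitiveRoot ζ ℓ := by
  have hk := isAlgClosed_kk A
  have hchar : CharP (kk A) p := S18Lib.charP_kk A hA
  haveI : NeZero ((ℓ : ℕ) : kk A) := ⟨by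
    intro h0
    rw [CharP.cast_eq_zero_iff (kk A) p] at h0
    exact hℓp ((Nat.prime_dvd_prime_iff_eq hpF.out hℓ).1 h0).symm⟩
  exact HasEnoughRootsOfUnity.exists_primitiveRoot (kk A) ℓ

include hpM hA in
/-- **(CST)** -/
theorem cst_main (hℓ : ℓ.Prime) (hℓp : ℓ ≠ p) (hℓM : ¬ ℓ ∣ M)
    (H : FT A M) (hH : (H : LaurentSeries (kk A)) = (phiL (kk A) p)⁻¹)
    (h g : FT A M) (hh : h ≠ 0) (c : kk A) (a : ℕ)
    (hrel : heckeMul ℓ (h : LaurentSeries (kk A)) =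
      HahnSeries.C c * (h : LaurentSeries (kk A)) ^ a * (g : LaurentSeries (kk A)) ^ p)
    (μ : ℤ) (hord : ∀ P : Place (kk A) (FT A M), (12 * p : ℤ) ∣ μ * ZZ3 A H P - 12 * P.ord h)
    (ha : ¬ (p : ℤ) ∣ (a : ℤ) - (ℓ + 1 : ℕ)) :
    ∀ P : Place (kk A) (FT A M), (p : ℤ) ∣ P.ord h := by
  have hk := isAlgClosed_kk A
  have hFF := isFF_FT A M
  obtain ⟨T, hT⟩ := exists_heckeDivT hpM A hA hℓ hℓp hℓM
  have hZ := heckeDivT_ZZ3 A hA hℓ hℓp hT H hH
  have hne : heckeMul ℓ (h : LaurentSeries (kk A)) ≠ 0 :=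
    heckeMul_ne_zero (CST_exists_prim A hA hℓp hℓ) (fun h0 => hh (Subtype.ext h0))
  have hc : c ≠ 0 := by
    rintro rfl
    apply hne
    rw [hrel, map_zero, zero_mul, zero_mul]
  have hg : g ≠ 0 := by
    rintro rfl
    apply hne
    rw [hrel, ZeroMemClass.coe_zero, zero_pow hpF.out.ne_zero, mul_zero]
  set G : FT A M := algebraMap (kk A) (FT A M) c * h ^ a * g ^ p with hG
  have hGc : (G : LaurentSeries (kk A)) = heckeMul ℓ (h : LaurentSeries (kk A)) := by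
    rw [hrel, hG]
    push_cast
    congr 2
    show algebraMap (kk A) (LaurentSeries (kk A)) c = _
    rw [algebraMap_laurentSeries_eq_single]
    rfl
  have hrelD : T (divOf (kk A) h) = a • divOf (kk A) h + p • divOf (kk A) g := by
    ext P
    rw [hT.prin h G hh hGc (divOf (kk A) h) (fun Q => divOf_apply hFF h Q) P, hG,
      P.ord_mul (mul_ne_zero ((_root_.map_ne_zero _).2 hc) (pow_ne_zero _ hh)) (pow_ne_zero _ hg),
      P.ord_mul ((_root_.map_ne_zero _).2 hc) (pow_ne_zero _ hh), ord_algebraMap, wa_ord_pow, wa_ord_pow,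
      Finsupp.add_apply, Finsupp.smul_apply, Finsupp.smul_apply, divOf_apply hFF,
      divOf_apply hFF, nsmul_eq_mul, nsmul_eq_mul, zero_add]
  intro P
  have := cst_abs T (ZZ3 A H) (divOf (kk A) h) (divOf (kk A) g) (ℓ + 1) a p hpF.out hZ hrelD μ
    (fun Q => by rw [divOf_apply hFF]; exact hord Q) ha P
  rwa [divOf_apply hFF] at this

end

end Fermat.Agent.S40Lib
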